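import Fermat.Statements.S24
import Fermat.Agent.ModFun.GenusX0
import Fermat.Prelude.Thm_ModularCurve_coeffMap_qExpand

set_option autoImplicit false
open ModularCurve

namespace Fermat.Agent.S24

open IntermediateField Fermat.Agent.ModFun

theorem modularFunctionFieldBar_eq (N : ℕ) [NeZero N] :
    modularFunctionFieldBar N = IntermediateField.adjoin (AlgebraicClosure ℚ)
      (gens (AlgebraicClosure ℚ) N) := by
  have key : ∀ (d : ℕ) [NeZero d], coeffEmb (AlgebraicClosure ℚ) (qExpand ℚ d jq) =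
      qExpand (AlgebraicClosure ℚ) d (jqModC (AlgebraicClosure ℚ)) := by
    intro d _
    rw [coeffEmb, coeffMap_qExpand]
    congr 1
    exact map_jqModC (algebraMap ℚ (AlgebraicClosure ℚ))
  apply le_antisymm
  · rw [modularFunctionFieldBar, laurentBaseChange, adjoin_le_iff]
    rintro x ⟨y, hy, rfl⟩
    have hy' : y ∈ modularFunctionFieldFull N := hy
    rw [modularFunctionFieldFull] at hy'
    induction hy' using IntermediateField.adjoin_induction with
    | mem z hz =>
      obtain ⟨d, hd0, hd, rfl⟩ := hz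
      rw [key]
      exact subset_adjoin _ _ ⟨d, hd0, hd, rfl⟩
    | algebraMap r =>
      have h1 : coeffEmb (AlgebraicClosure ℚ) (algebraMap ℚ (LaurentSeries ℚ) r) =
          algebraMap (AlgebraicClosure ℚ) (LaurentSeries (AlgebraicClosure ℚ))
            (algebraMap ℚ (AlgebraicClosure ℚ) r) := by
        rw [algebraMap_laurentSeries_eq_single, algebraMap_laurentSeries_eq_single, coeffEmb,
          coeffMap_single]
      rw [h1]
      exact IntermediateField.algebraMap_mem _ _
    | add a b ha hb h1 h2 =>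
      rw [map_add]
      exact add_mem (h1 ha) (h2 hb)
    | inv a ha h1 =>
      rw [map_inv₀]
      exact inv_mem (h1 ha)
    | mul a b ha hb h1 h2 =>
      rw [map_mul]
      exact mul_mem (h1 ha) (h2 hb)
  · rw [adjoin_le_iff]
    rintro x ⟨d, hd0, hd, rfl⟩
    rw [← key]
    exact coeffEmb_mem_laurentBaseChange _ (jqd_mem_full N hd)

theorem genus_of_eq {N : ℕ} [NeZero N] {L : IntermediateField (AlgebraicClosure ℚ)
    (LaurentSeries (AlgebraicClosure ℚ))} (hL : L = F0 (AlgebraicClosure ℚ) N)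
    [h : AlgebraicCurve.HasCanonicalDivisor (K := AlgebraicClosure ℚ) (F := L)] :
    (AlgebraicCurve.genus (AlgebraicClosure ℚ) L : ℚ) = ModularCurve.genusFormula N := by
  subst hL
  haveI : Algebra.IsAlgebraic ℚ (AlgebraicClosure ℚ) := AlgebraicClosure.isAlgebraic ℚ
  let ι : AlgebraicClosure ℚ →+* ℂ :=
    (IsAlgClosed.lift : AlgebraicClosure ℚ →ₐ[ℚ] ℂ).toRingHom
  obtain ⟨μ, hμ⟩ := HasEnoughRootsOfUnity.exists_primitiveRoot (AlgebraicClosure ℚ) N
  have hμ' : IsPrimitiveRoot (ι μ) N := hμ.map_of_injective ι.injective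
  have hN : (N : ℂ) ≠ 0 := by exact_mod_cast NeZero.ne N
  obtain ⟨i, -, hi⟩ := hμ'.eq_pow_of_pow_eq_one
    (ξ := Complex.exp (2 * Real.pi * Complex.I / N)) (by
      rw [← Complex.exp_nat_mul, mul_div_cancel₀ _ hN, Complex.exp_two_pi_mul_I])
  have hμ0 : μ ≠ 0 := hμ.ne_zero (NeZero.ne N)
  exact genus_F0 (ι := ι) (ζ := Units.mk0 (μ ^ i) (pow_ne_zero _ hμ0)) (by
    rw [Units.val_mk0, map_pow]
    exact hi)

theorem result (N : ℕ) [NeZero N]
    [AlgebraicCurve.HasCanonicalDivisor (K := AlgebraicClosure ℚ) (F := ↥(ModularCurve.modularFunctionFieldBar N))] :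
    (AlgebraicCurve.genus (AlgebraicClosure ℚ) ↥(ModularCurve.modularFunctionFieldBar N) : ℚ)
      = ModularCurve.genusFormula N :=
  genus_of_eq (modularFunctionFieldBar_eq N)

end Fermat.Agent.S24
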