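import Fermat.Statements.S02

set_option autoImplicit false
open FreyPackage

namespace Fermat.Agent.S02

/-- The package, once `b` is even and `a ≡ 3 mod 4`. -/
lemma nonempty_of_even_of_three (a b c : ℤ) (ha : a ≠ 0) (hb : b ≠ 0) (hc : c ≠ 0) (p : ℕ)
    (pp : p.Prime) (hp5 : 5 ≤ p) (H : a ^ p + b ^ p = c ^ p) (hab : IsCoprime a b)
    (hb2 : b % 2 = 0) (ha4 : a % 4 = 3) : Nonempty FreyPackage := by
  refine ⟨⟨a, b, c, ha, hb, hc, p, pp, hp5, H, ?_, ?_, ?_⟩⟩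
  · rw [← Int.coe_gcd, Int.isCoprime_iff_gcd_eq_one.mp hab]; rfl
  · have : ((a : ℤ) : ZMod 4) = ((3 : ℤ) : ZMod 4) := by
      rw [ZMod.intCast_eq_intCast_iff]
      exact ha4
    simpa using this
  · rw [ZMod.intCast_zmod_eq_zero_iff_dvd]
    exact Int.dvd_of_emod_eq_zero hb2

lemma nonempty_of_even (a b c : ℤ) (ha : a ≠ 0) (hb : b ≠ 0) (hc : c ≠ 0) (p : ℕ)
    (pp : p.Prime) (hp5 : 5 ≤ p) (H : a ^ p + b ^ p = c ^ p) (hab : IsCoprime a b)
    (hb2 : b % 2 = 0) : Nonempty FreyPackage := by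
  have hodd : Odd p := pp.odd_of_ne_two (by omega)
  have ha2 : a % 2 = 1 := by
    rcases Int.emod_two_eq_zero_or_one a with h | h
    · exfalso
      have h1 : IsUnit (2 : ℤ) :=
        hab.isUnit_of_dvd' (Int.dvd_of_emod_eq_zero h) (Int.dvd_of_emod_eq_zero hb2)
      rw [Int.isUnit_iff] at h1
      omega
    · exact h
  have h4 : a % 4 = 1 ∨ a % 4 = 3 := by omega
  rcases h4 with h | h
  · refine nonempty_of_even_of_three (-a) (-b) (-c) (neg_ne_zero.mpr ha) (neg_ne_zero.mpr hb)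
      (neg_ne_zero.mpr hc) p pp hp5 ?_ ?_ (by omega) (by omega)
    · rw [hodd.neg_pow, hodd.neg_pow, hodd.neg_pow, ← H]; ring
    · exact hab.neg_neg
  · exact nonempty_of_even_of_three a b c ha hb hc p pp hp5 H hab hb2 h

lemma nonempty_of_coprime (a b c : ℤ) (ha : a ≠ 0) (hb : b ≠ 0) (hc : c ≠ 0) (p : ℕ)
    (pp : p.Prime) (hp5 : 5 ≤ p) (H : a ^ p + b ^ p = c ^ p) (hab : IsCoprime a b) :
    Nonempty FreyPackage := by
  have hodd : Odd p := pp.odd_of_ne_two (by omega)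
  have hp0 : p ≠ 0 := pp.ne_zero
  rcases Int.emod_two_eq_zero_or_one b with hb2 | hb2
  · exact nonempty_of_even a b c ha hb hc p pp hp5 H hab hb2
  rcases Int.emod_two_eq_zero_or_one a with ha2 | ha2
  · exact nonempty_of_even b a c hb ha hc p pp hp5 (by rw [add_comm]; exact H) hab.symm ha2
  -- both odd: `c` is even
  have hc2 : c % 2 = 0 := by
    have h1 : Odd (a ^ p) := (Int.odd_iff.mpr ha2).pow
    have h2 : Odd (b ^ p) := (Int.odd_iff.mpr hb2).pow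
    have h3 : Even (c ^ p) := by rw [← H]; exact h1.add_odd h2
    exact Int.even_iff.mp ((Int.even_pow.mp h3).1)
  refine nonempty_of_even a (-c) (-b) ha (neg_ne_zero.mpr hc) (neg_ne_zero.mpr hb) p pp hp5 ?_ ?_
    (by omega)
  · rw [hodd.neg_pow, hodd.neg_pow, ← H]; ring
  · have h1 : IsCoprime (a ^ p) (c ^ p) := by
      rw [← H]
      have : IsCoprime (a ^ p) (b ^ p) := hab.pow
      simpa [add_comm] using this.add_mul_left_right 1
    have h2 : IsCoprime a c := (IsCoprime.pow_iff (pp.pos) (pp.pos)).mp h1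
    exact h2.neg_right

theorem result (a b c : ℤ) (ha : a ≠ 0) (hb : b ≠ 0) (hc : c ≠ 0) (p : ℕ) (pp : p.Prime) (hp5 : 5 ≤ p) (H : a ^ p + b ^ p = c ^ p) : Nonempty FreyPackage := by
  have hp0 : p ≠ 0 := pp.ne_zero
  set g : ℤ := (Int.gcd a b : ℤ) with hg
  have hg0 : g ≠ 0 := by
    rw [hg]
    simp [Int.gcd_eq_zero_iff, ha]
  obtain ⟨a', ha'⟩ : g ∣ a := Int.gcd_dvd_left a b
  obtain ⟨b', hb'⟩ : g ∣ b := Int.gcd_dvd_right a b
  have hgc : g ∣ c := by
    rw [← Int.pow_dvd_pow_iff hp0, ← H]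
    exact dvd_add (pow_dvd_pow_of_dvd ⟨a', ha'⟩ p) (pow_dvd_pow_of_dvd ⟨b', hb'⟩ p)
  obtain ⟨c', hc'⟩ := hgc
  have ha0 : a' ≠ 0 := by rintro rfl; exact ha (by simpa using ha')
  have hb0 : b' ≠ 0 := by rintro rfl; exact hb (by simpa using hb')
  have hc0 : c' ≠ 0 := by rintro rfl; exact hc (by simpa using hc')
  have hcop : IsCoprime a' b' := by
    rw [Int.isCoprime_iff_gcd_eq_one]
    have h1 : Int.gcd a b = Int.gcd a b * Int.gcd a' b' := by
      conv_lhs => rw [ha', hb']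
      rw [Int.gcd_mul_left, hg, Int.natAbs_natCast]
    have h2 : 0 < Int.gcd a b := Int.gcd_pos_of_ne_zero_left b ha
    exact Nat.eq_of_mul_eq_mul_left h2 (by rw [← h1, mul_one])
  refine nonempty_of_coprime a' b' c' ha0 hb0 hc0 p pp hp5 ?_ hcop
  have h3 : g ^ p * (a' ^ p + b' ^ p) = g ^ p * c' ^ p := by
    rw [mul_add, ← mul_pow, ← mul_pow, ← mul_pow, ← ha', ← hb', ← hc', H]
  exact mul_left_cancel₀ (pow_ne_zero p hg0) h3

end Fermat.Agent.S02
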