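import Fermat.Statements.S07
import Fermat.Prelude.Thm_ModularForm_sturm_bound_Gamma0

set_option autoImplicit false
open WeierstrassCurve WeierstrassCurve.Affine WeierstrassCurve.Affine.Point
open CuspForm ModularFormClass UpperHalfPlane
open ModularForm

namespace Fermat.Agent.S07

open scoped MatrixGroups in
theorem index_Gamma0_two_le : (CongruenceSubgroup.Gamma0 2).index ≤ 4 := by
  let φ : SL(2, ℤ) ⧸ (CongruenceSubgroup.Gamma0 2) → ZMod 2 × ZMod 2 :=
    fun q => (((q.out 0 0 : ℤ) : ZMod 2), ((q.out 1 0 : ℤ) : ZMod 2))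
  have hφ : Function.Injective φ := by
    intro q1 q2 h
    have h00 : ((q1.out 0 0 : ℤ) : ZMod 2) = ((q2.out 0 0 : ℤ) : ZMod 2) := congrArg Prod.fst h
    have h10 : ((q1.out 1 0 : ℤ) : ZMod 2) = ((q2.out 1 0 : ℤ) : ZMod 2) := congrArg Prod.snd h
    rw [← q1.out_eq, ← q2.out_eq]
    refine Quotient.sound' ?_
    rw [QuotientGroup.leftRel_apply, CongruenceSubgroup.Gamma0_mem]
    have : ((q1.out)⁻¹ * q2.out) 1 0 =
        - (q1.out 1 0) * (q2.out 0 0) + (q1.out 0 0) * (q2.out 1 0) := by
      simp [Matrix.SpecialLinearGroup.coe_mul, Matrix.SpecialLinearGroup.coe_inv,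
        Matrix.adjugate_fin_two, Matrix.mul_apply, Fin.sum_univ_two]
    rw [this]
    push_cast
    rw [h00, h10]
    ring
  have hc : Nat.card (ZMod 2 × ZMod 2) = 4 := by
    simp
  rw [Subgroup.index, ← hc]
  exact Nat.card_le_card_of_injective φ hφ

theorem result (f : CuspForm (CongruenceSubgroup.Gamma0 2) 2) : f = 0 := by
  have h1 : (1 : ℝ) ∈ (CongruenceSubgroup.Gamma0 2 : Subgroup (GL (Fin 2) ℝ)).strictPeriods := by
    simp [CongruenceSubgroup.strictPeriods_Gamma0]
  have h0 : CuspForm.toModularFormₗ f = 0 := by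
    apply ModularForm.sturm_bound_Gamma0 2
    intro n hn
    have hi := index_Gamma0_two_le
    have hn0 : n = 0 := by
      have : ((2 : ℤ) * ((CongruenceSubgroup.Gamma0 2).index : ℤ)).toNat ≤ 8 := by omega
      omega
    subst hn0
    exact CuspFormClass.qExpansion_coeff_zero f one_pos h1
  exact CuspForm.toModularFormₗ_injective (by rw [h0, _root_.map_zero])

end Fermat.Agent.S07
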