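-- Statement S12: for p ≥ 17 the Frey curve has no Galois-stable line with trivial quotient.
import Fermat.Statements.S12
import Fermat.Agent.SC.Mazur

set_option autoImplicit false
open WeierstrassCurve WeierstrassCurve.Affine WeierstrassCurve.Affine.Point
open CuspForm ModularFormClass UpperHalfPlane
open FreyPackage

namespace Fermat.Agent.S12

theorem result (P : FreyPackage) (hp : 17 ≤ P.p) : ¬ HasGaloisStableCofixedLine (K := AlgebraicClosure ℚ) ℚ P.freyCurve P.p :=
  Fermat.Agent.SC.no_cofixed Fermat.Agent.SC.s15G P hp

end Fermat.Agent.S12
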