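-- Statement S05: the mod-p representation of the Frey curve is unramified outside 2 and p.
import Fermat.Statements.S05
import Fermat.Agent.EC.InertiaQ

set_option autoImplicit false
open WeierstrassCurve WeierstrassCurve.Affine WeierstrassCurve.Affine.Point
open CuspForm ModularFormClass UpperHalfPlane
open FreyPackage

namespace Fermat.Agent.S05

open Fermat.Agent.EC

lemma frey_b₂ (P : FreyPackage) : P.freyCurve.b₂ = (P.b : ℚ) ^ P.p - (P.a : ℚ) ^ P.p := by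
  simp only [WeierstrassCurve.b₂, freyCurve]; ring

lemma frey_b₄ (P : FreyPackage) : P.freyCurve.b₄ = -((P.a : ℚ) ^ P.p * (P.b : ℚ) ^ P.p) / 8 := by
  simp only [WeierstrassCurve.b₄, freyCurve]; ring

lemma frey_c₄ (P : FreyPackage) : P.freyCurve.c₄ =
    (((P.a ^ P.p) ^ 2 + P.a ^ P.p * P.b ^ P.p + (P.b ^ P.p) ^ 2 : ℤ) : ℚ) := by
  rw [WeierstrassCurve.c₄, frey_b₂, frey_b₄]; push_cast; ring

lemma frey_Δ (P : FreyPackage) : P.freyCurve.Δ =
    (((P.a * P.b * P.c) ^ (2 * P.p) : ℤ) : ℚ) / 2 ^ 8 := by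
  have hF : (P.c : ℚ) ^ P.p = (P.a : ℚ) ^ P.p + (P.b : ℚ) ^ P.p := by exact_mod_cast P.hFLT.symm
  have hb₆ : P.freyCurve.b₆ = 0 := by simp [WeierstrassCurve.b₆, freyCurve]
  have hb₈ : P.freyCurve.b₈ = -((P.a : ℚ) ^ P.p * (P.b : ℚ) ^ P.p / 16) ^ 2 := by
    simp only [WeierstrassCurve.b₈, freyCurve]; ring
  rw [WeierstrassCurve.Δ, frey_b₂, frey_b₄, hb₆, hb₈]
  push_cast
  rw [mul_comm 2 P.p, pow_mul, mul_pow, mul_pow, hF]
  ring

lemma frey_Δ_ne_zero (P : FreyPackage) : P.freyCurve.Δ ≠ 0 := by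
  rw [frey_Δ]
  refine div_ne_zero ?_ (by norm_num)
  exact_mod_cast pow_ne_zero _ P.habc0

/-- The primes dividing the discriminant do not divide `c₄`. -/
lemma not_dvd_c₄ (P : FreyPackage) {q : ℕ} (hq : q.Prime) (h : (q : ℤ) ∣ P.a * P.b * P.c) :
    ¬ (q : ℤ) ∣ (P.a ^ P.p) ^ 2 + P.a ^ P.p * P.b ^ P.p + (P.b ^ P.p) ^ 2 := by
  have hqp := Nat.prime_iff_prime_int.mp hq
  have hp0 : P.p ≠ 0 := P.hp0
  have hndvd : ∀ {x y : ℤ}, gcd x y = 1 → (q : ℤ) ∣ x → ¬ (q : ℤ) ∣ y := by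
    intro x y hxy hx hy
    have := dvd_gcd hx hy
    rw [hxy] at this
    exact hqp.not_isUnit (isUnit_of_dvd_one this)
  intro hd
  rcases hqp.dvd_or_dvd h with h1 | h1
  · rcases hqp.dvd_or_dvd h1 with h2 | h2
    · have h3 : (q : ℤ) ∣ P.a ^ P.p := h2.trans (dvd_pow_self _ hp0)
      have h4 : (q : ℤ) ∣ (P.b ^ P.p) ^ 2 := by
        have : (P.b ^ P.p) ^ 2 = ((P.a ^ P.p) ^ 2 + P.a ^ P.p * P.b ^ P.p + (P.b ^ P.p) ^ 2) -
          P.a ^ P.p * (P.a ^ P.p + P.b ^ P.p) := by ring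
        rw [this]
        exact dvd_sub hd (h3.mul_right _)
      exact hndvd P.hgcdab h2 (hqp.dvd_of_dvd_pow (hqp.dvd_of_dvd_pow h4))
    · have h3 : (q : ℤ) ∣ P.b ^ P.p := h2.trans (dvd_pow_self _ hp0)
      have h4 : (q : ℤ) ∣ (P.a ^ P.p) ^ 2 := by
        have : (P.a ^ P.p) ^ 2 = ((P.a ^ P.p) ^ 2 + P.a ^ P.p * P.b ^ P.p + (P.b ^ P.p) ^ 2) -
          P.b ^ P.p * (P.a ^ P.p + P.b ^ P.p) := by ring
        rw [this]
        exact dvd_sub hd (h3.mul_right _)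
      have hba : gcd P.b P.a = 1 := by rw [gcd_comm]; exact P.hgcdab
      exact hndvd hba h2 (hqp.dvd_of_dvd_pow (hqp.dvd_of_dvd_pow h4))
  · have h3 : (q : ℤ) ∣ P.a ^ P.p + P.b ^ P.p := by
      rw [P.hFLT]; exact h1.trans (dvd_pow_self _ hp0)
    have h4 : (q : ℤ) ∣ (P.a ^ P.p) ^ 2 := by
      have : (P.a ^ P.p) ^ 2 = ((P.a ^ P.p) ^ 2 + P.a ^ P.p * P.b ^ P.p + (P.b ^ P.p) ^ 2) -
        P.b ^ P.p * (P.a ^ P.p + P.b ^ P.p) := by ring
      rw [this]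
      exact dvd_sub hd (h3.mul_left _)
    have hca : gcd P.c P.a = 1 := by rw [gcd_comm]; exact P.hgcdac
    exact hndvd hca h1 (hqp.dvd_of_dvd_pow (hqp.dvd_of_dvd_pow h4))

local notation "Kb" => AlgebraicClosure ℚ

theorem result (P : FreyPackage) {q : ℕ} (hq : q.Prime) (hq2 : q ≠ 2) (hqp : q ≠ P.p) : P.GaloisRepUnramifiedAt q := by
  intro A hA σ hσ x
  have := Fact.mk hq
  have hvq : A.valuation ((q : ℕ) : AlgebraicClosure ℚ) < 1 := hA
  apply Subtype.ext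
  change Point.map (W' := P.freyCurve) σ.toAlgHom x.1 = x.1
  have hP : P.p • (x.1 : (P.freyCurve⁄(AlgebraicClosure ℚ)).Point) = 0 := by
    have h1 := (Submodule.mem_torsionBy_iff _ _).mp x.2
    rw [natCast_zsmul] at h1
    exact h1
  have h2 : A.valuation ((2 : ℕ) : Kb) = 1 := v_nat_eq_one hq hvq (fun h =>
    hq2 ((Nat.prime_dvd_prime_iff_eq hq Nat.prime_two).mp h))
  have h2' : A.valuation (2 : Kb) = 1 := by exact_mod_cast h2
  have h4 : A.valuation (4 : Kb) = 1 := by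
    have : (4 : Kb) = 2 ^ 2 := by norm_num
    rw [this, map_pow, h2', one_pow]
  have h16 : A.valuation (16 : Kb) = 1 := by
    have : (16 : Kb) = 2 ^ 4 := by norm_num
    rw [this, map_pow, h2', one_pow]
  have h256 : A.valuation ((2 : Kb) ^ 8) = 1 := by rw [map_pow, h2', one_pow]
  have ea₁ : (P.freyCurve⁄Kb).a₁ = algebraMap ℚ Kb P.freyCurve.a₁ := rfl
  have ea₂ : (P.freyCurve⁄Kb).a₂ = algebraMap ℚ Kb P.freyCurve.a₂ := rfl
  have ea₃ : (P.freyCurve⁄Kb).a₃ = algebraMap ℚ Kb P.freyCurve.a₃ := rfl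
  have ea₄ : (P.freyCurve⁄Kb).a₄ = algebraMap ℚ Kb P.freyCurve.a₄ := rfl
  have ea₆ : (P.freyCurve⁄Kb).a₆ = algebraMap ℚ Kb P.freyCurve.a₆ := rfl
  have ec₄ : (P.freyCurve⁄Kb).c₄ = algebraMap ℚ Kb P.freyCurve.c₄ := map_c₄ _ _
  have eΔ : (P.freyCurve⁄Kb).Δ = algebraMap ℚ Kb P.freyCurve.Δ := map_Δ _ _
  have hW : VInt A.valuation (P.freyCurve⁄Kb) := by
    refine ⟨?_, ?_, ?_, ?_, ?_⟩
    · rw [ea₁]; simp [freyCurve]
    · have : (P.freyCurve⁄Kb).a₂ = ((P.b ^ P.p - 1 - P.a ^ P.p : ℤ) : Kb) / 4 := by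
        rw [ea₂]; simp [freyCurve]
      rw [this]
      exact v_div_unit_le (v_int_le _) h4
    · rw [ea₃]; simp [freyCurve]
    · have : (P.freyCurve⁄Kb).a₄ = ((-(P.a ^ P.p) * P.b ^ P.p : ℤ) : Kb) / 16 := by
        rw [ea₄]; simp only [freyCurve]; push_cast; simp
      rw [this]
      exact v_div_unit_le (v_int_le _) h16
    · rw [ea₆]; simp [freyCurve]
  have hpv : A.valuation (P.p : Kb) = 1 := v_nat_eq_one hq hvq (fun h =>
    hqp ((Nat.prime_dvd_prime_iff_eq hq P.pp).mp h))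
  have hΔK : (P.freyCurve⁄Kb).Δ = (((P.a * P.b * P.c) ^ (2 * P.p) : ℤ) : Kb) / 2 ^ 8 := by
    rw [eΔ, frey_Δ]; simp
  by_cases hd : (q : ℤ) ∣ P.a * P.b * P.c
  · -- multiplicative reduction
    have hc₄ : A.valuation (P.freyCurve⁄Kb).c₄ = 1 := by
      have : (P.freyCurve⁄Kb).c₄ =
          (((P.a ^ P.p) ^ 2 + P.a ^ P.p * P.b ^ P.p + (P.b ^ P.p) ^ 2 : ℤ) : Kb) := by
        rw [ec₄, frey_c₄]; push_cast; simp
      rw [this]
      exact v_int_eq_one hq hvq (not_dvd_c₄ P hq hd)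
    have hΔ0 : (P.freyCurve⁄Kb).Δ ≠ 0 := by
      rw [eΔ]
      exact (map_ne_zero _).mpr (frey_Δ_ne_zero P)
    have habc : A.valuation ((P.a * P.b * P.c : ℤ) : Kb) < 1 := by
      rw [v_int_eq hq hvq P.habc0]
      refine pow_lt_one₀ zero_le hvq ?_
      intro h0
      rcases padicValInt.eq_zero_iff.mp h0 with h | h | h
      · exact hq.ne_one h
      · exact P.habc0 h
      · exact h hd
    have hΔ : A.valuation (P.freyCurve⁄Kb).Δ < 1 := by
      rw [hΔK, map_div₀, h256, div_one, Int.cast_pow, map_pow]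
      exact pow_lt_one₀ zero_le habc (by have := P.hp0; omega)
    have hk : qval hq hvq (P.freyCurve⁄Kb).Δ =
        P.p * ((2 * padicValRat q ((P.a * P.b * P.c : ℤ) : ℚ) : ℤ) : ℚ) := by
      have e1 : (P.freyCurve⁄Kb).Δ = ((P.freyCurve.Δ : ℚ) : Kb) := by
        rw [eΔ]; simp
      have habc0 : ((P.a * P.b * P.c : ℤ) : ℚ) ≠ 0 := by exact_mod_cast P.habc0
      have h28 : padicValRat q ((2 : ℚ) ^ 8) = 0 := by
        have : ((2 : ℚ) ^ 8) = ((256 : ℕ) : ℚ) := by norm_num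
        rw [this, padicValRat.of_nat]
        have h256 : padicValNat q 256 = 0 := by
          apply padicValNat.eq_zero_of_not_dvd
          intro h
          have h' : q ∣ 2 ^ 8 := by norm_num; exact h
          exact hq2 ((Nat.prime_dvd_prime_iff_eq hq Nat.prime_two).mp (hq.dvd_of_dvd_pow h'))
        rw [h256]; rfl
      rw [e1, qval_rat hq hvq (frey_Δ_ne_zero P), frey_Δ, Int.cast_pow,
        padicValRat.div (pow_ne_zero _ habc0) (by norm_num), padicValRat.pow, h28]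
      push_cast
      ring
    exact map_eq_of_inertia_of_mult hq hvq hσ P.freyCurve hW hc₄ hΔ hΔ0 P.pp
      (by have := P.hp5; omega) hpv hk hP
  · -- good reduction
    have hΔ : A.valuation (P.freyCurve⁄Kb).Δ = 1 := by
      rw [hΔK, map_div₀, h256, div_one, Int.cast_pow, map_pow, v_int_eq_one hq hvq hd, one_pow]
    exact map_eq_of_inertia_of_good hσ P.freyCurve hW hΔ hpv hP

end Fermat.Agent.S05
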