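-- Statement S13: a reducible mod-p representation of the Frey curve has a stable line with
-- trivial quotient.
import Fermat.Statements.S13
import Fermat.Agent.S05
import Fermat.Agent.EC.Dichotomy
import Fermat.Agent.EC.TwoAdic

set_option autoImplicit false
open WeierstrassCurve WeierstrassCurve.Affine WeierstrassCurve.Affine.Point
open CuspForm ModularFormClass UpperHalfPlane
open FreyPackage

namespace Fermat.Agent.S13

open Fermat.Agent.EC Fermat.Agent.S05

local notation "Kb" => AlgebraicClosure ℚ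
local notation "GQ" => (AlgebraicClosure ℚ ≃ₐ[ℚ] AlgebraicClosure ℚ)

lemma frey_a₂_int (P : FreyPackage) : ∃ n : ℤ, P.freyCurve.a₂ = n := by
  have h4 : (4 : ℤ) ∣ P.b ^ P.p - 1 - P.a ^ P.p := by
    apply (ZMod.intCast_zmod_eq_zero_iff_dvd _ 4).mp
    push_cast
    rw [P.ha4]
    have hb : (2 : ℤ) ∣ P.b := (ZMod.intCast_zmod_eq_zero_iff_dvd P.b 2).1 P.hb2
    have hb4 : ((P.b : ZMod 4)) ^ P.p = 0 := by
      obtain ⟨k, hk⟩ := hb
      obtain ⟨m, hm⟩ : ∃ m, P.p = m + 2 := ⟨P.p - 2, by have := P.hp5; omega⟩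
      rw [hk, hm, pow_add]
      push_cast
      have : ((2 : ZMod 4) * k) ^ 2 = 0 := by
        rw [mul_pow]
        have : (2 : ZMod 4) ^ 2 = 0 := by decide
        rw [this, zero_mul]
      rw [this, mul_zero]
    have h3 : (3 : ZMod 4) = -1 := by decide
    rw [hb4, h3, P.hp_odd.neg_one_pow]
    ring
  obtain ⟨n, hn⟩ := h4
  refine ⟨n, ?_⟩
  have : ((P.b : ℚ) ^ P.p - 1 - (P.a : ℚ) ^ P.p) = 4 * n := by exact_mod_cast hn
  simp only [freyCurve]
  rw [this]
  ring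

lemma frey_a₄_int (P : FreyPackage) : ∃ n : ℤ, P.freyCurve.a₄ = n := by
  have h16 : (16 : ℤ) ∣ P.b ^ P.p := by
    have hb : (2 : ℤ) ∣ P.b := (ZMod.intCast_zmod_eq_zero_iff_dvd P.b 2).1 P.hb2
    have h1 : (2 : ℤ) ^ P.p ∣ P.b ^ P.p := pow_dvd_pow_of_dvd hb _
    have h2 : (2 : ℤ) ^ 4 ∣ (2 : ℤ) ^ P.p := pow_dvd_pow 2 (by have := P.hp5; omega)
    have h3 : (16 : ℤ) = 2 ^ 4 := by norm_num
    rw [h3]
    exact h2.trans h1
  obtain ⟨n, hn⟩ := h16
  refine ⟨-(P.a ^ P.p) * n, ?_⟩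
  have : ((P.b : ℚ) ^ P.p) = 16 * n := by exact_mod_cast hn
  simp only [freyCurve]
  rw [this]
  push_cast
  ring

/-- The Frey curve is integral everywhere. -/
lemma frey_vint (P : FreyPackage) (A : ValuationSubring Kb) :
    VInt A.valuation (P.freyCurve⁄Kb) := by
  have ea₁ : (P.freyCurve⁄Kb).a₁ = algebraMap ℚ Kb P.freyCurve.a₁ := rfl
  have ea₂ : (P.freyCurve⁄Kb).a₂ = algebraMap ℚ Kb P.freyCurve.a₂ := rfl
  have ea₃ : (P.freyCurve⁄Kb).a₃ = algebraMap ℚ Kb P.freyCurve.a₃ := rfl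
  have ea₄ : (P.freyCurve⁄Kb).a₄ = algebraMap ℚ Kb P.freyCurve.a₄ := rfl
  have ea₆ : (P.freyCurve⁄Kb).a₆ = algebraMap ℚ Kb P.freyCurve.a₆ := rfl
  obtain ⟨n₂, h₂⟩ := frey_a₂_int P
  obtain ⟨n₄, h₄⟩ := frey_a₄_int P
  refine ⟨?_, ?_, ?_, ?_, ?_⟩
  · rw [ea₁]; simp [freyCurve]
  · rw [ea₂, h₂, _root_.map_intCast]; exact v_int_le _
  · rw [ea₃]; simp [freyCurve]
  · rw [ea₄, h₄, _root_.map_intCast]; exact v_int_le _
  · rw [ea₆]; simp [freyCurve]

section place

variable (P : FreyPackage) {q : ℕ} (hq : q.Prime) {A : ValuationSubring Kb}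
  (hvq : A.valuation ((q : ℕ) : Kb) < 1)
include hq hvq

lemma frey_v_c₄ (hd : (q : ℤ) ∣ P.a * P.b * P.c) : A.valuation (P.freyCurve⁄Kb).c₄ = 1 := by
  have ec₄ : (P.freyCurve⁄Kb).c₄ = algebraMap ℚ Kb P.freyCurve.c₄ := map_c₄ _ _
  have : (P.freyCurve⁄Kb).c₄ =
      (((P.a ^ P.p) ^ 2 + P.a ^ P.p * P.b ^ P.p + (P.b ^ P.p) ^ 2 : ℤ) : Kb) := by
    rw [ec₄, frey_c₄]; push_cast; simp
  rw [this]
  exact v_int_eq_one hq hvq (not_dvd_c₄ P hq hd)

omit hq hvq in
lemma frey_Δ0 : (P.freyCurve⁄Kb).Δ ≠ 0 := by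
  have eΔ : (P.freyCurve⁄Kb).Δ = algebraMap ℚ Kb P.freyCurve.Δ := map_Δ _ _
  rw [eΔ]
  exact (map_ne_zero _).mpr (frey_Δ_ne_zero P)

omit hq hvq in
lemma frey_ΔK : (P.freyCurve⁄Kb).Δ = ((P.freyCurve.Δ : ℚ) : Kb) := by
  have eΔ : (P.freyCurve⁄Kb).Δ = algebraMap ℚ Kb P.freyCurve.Δ := map_Δ _ _
  rw [eΔ]; simp

omit hq hvq in
lemma padic_frey_Δ [Fact q.Prime] : padicValRat q P.freyCurve.Δ =
    2 * P.p * padicValInt q (P.a * P.b * P.c) - 8 * padicValNat q 2 := by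
  have habc0 : ((P.a * P.b * P.c : ℤ) : ℚ) ≠ 0 := by exact_mod_cast P.habc0
  rw [frey_Δ, Int.cast_pow, padicValRat.div (pow_ne_zero _ habc0) (by norm_num),
    padicValRat.pow, padicValRat.pow]
  have h2 : padicValRat q (2 : ℚ) = padicValNat q 2 := by
    have : (2 : ℚ) = ((2 : ℕ) : ℚ) := by norm_num
    rw [this, padicValRat.of_nat]
  rw [h2, padicValRat.of_int]
  push_cast
  ring

lemma frey_v_Δ_lt (hd : (q : ℤ) ∣ P.a * P.b * P.c) : A.valuation (P.freyCurve⁄Kb).Δ < 1 := by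
  have := Fact.mk hq
  rw [frey_ΔK, v_rat_eq hq hvq (frey_Δ_ne_zero P), padic_frey_Δ]
  have hq0 : 0 < A.valuation ((q : ℕ) : Kb) := by
    rw [zero_lt_iff, Valuation.ne_zero_iff]
    exact_mod_cast hq.ne_zero
  have h1 : 1 ≤ padicValInt q (P.a * P.b * P.c) := by
    by_contra hlt
    have h0 : padicValInt q (P.a * P.b * P.c) = 0 := by omega
    rcases padicValInt.eq_zero_iff.mp h0 with h | h | h
    · exact hq.ne_one h
    · exact P.habc0 h
    · exact h hd
  have h2 : padicValNat q 2 ≤ 1 := by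
    by_cases h : q = 2
    · subst h; simp
    · rw [padicValNat.eq_zero_of_not_dvd]
      · omega
      · intro h'
        exact h ((Nat.prime_dvd_prime_iff_eq hq Nat.prime_two).mp h')
  have h5 := P.hp5
  have hpos : 0 < (2 * P.p * padicValInt q (P.a * P.b * P.c) - 8 * padicValNat q 2 : ℤ) := by
    have e1 : (10 : ℤ) ≤ 2 * P.p * padicValInt q (P.a * P.b * P.c) := by
      have : (5 : ℤ) ≤ P.p := by exact_mod_cast h5
      have h1' : (1 : ℤ) ≤ padicValInt q (P.a * P.b * P.c) := by exact_mod_cast h1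
      nlinarith
    have e2 : (8 : ℤ) * padicValNat q 2 ≤ 8 := by
      have : (padicValNat q 2 : ℤ) ≤ 1 := by exact_mod_cast h2
      linarith
    linarith
  rw [← zpow_zero (A.valuation ((q : ℕ) : Kb)),
    zpow_lt_zpow_iff_right_of_lt_one₀ hq0 hvq]
  exact hpos

lemma frey_v_Δ_eq (hd : ¬ (q : ℤ) ∣ P.a * P.b * P.c) : A.valuation (P.freyCurve⁄Kb).Δ = 1 := by
  have hq2 : q ≠ 2 := by
    rintro rfl
    exact hd P.two_dvd_abc
  have h2 : A.valuation ((2 : ℕ) : Kb) = 1 := v_nat_eq_one hq hvq (fun h =>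
    hq2 ((Nat.prime_dvd_prime_iff_eq hq Nat.prime_two).mp h))
  have h2' : A.valuation (2 : Kb) = 1 := by exact_mod_cast h2
  have h256 : A.valuation ((2 : Kb) ^ 8) = 1 := by rw [_root_.map_pow, h2', one_pow]
  have hΔK : (P.freyCurve⁄Kb).Δ = (((P.a * P.b * P.c) ^ (2 * P.p) : ℤ) : Kb) / 2 ^ 8 := by
    rw [frey_ΔK, frey_Δ]; simp
  rw [hΔK, map_div₀, h256, div_one, Int.cast_pow, _root_.map_pow, v_int_eq_one hq hvq hd, one_pow]

end place

instance frey_isElliptic (P : FreyPackage) : P.freyCurve.IsElliptic :=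
  ⟨(frey_Δ_ne_zero P).isUnit⟩

/-- unipotence outside `p`. -/
lemma frey_unip (P : FreyPackage) {q : ℕ} (hq : q.Prime) (hqp : q ≠ P.p)
    {A : ValuationSubring Kb} (hA : A.LiesOverPrime q) {σ : GQ}
    (hσ : σ ∈ A.inertiaSubgroupIn ℚ) (x : TorsP P.freyCurve P.p) :
    σ • (σ • x - x) = σ • x - x := by
  have hvq : A.valuation ((q : ℕ) : Kb) < 1 := hA
  have hpv : A.valuation (P.p : Kb) = 1 := v_nat_eq_one hq hvq (fun h =>
    hqp ((Nat.prime_dvd_prime_iff_eq hq P.pp).mp h))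
  have hP := torsion_smul x
  by_cases hd : (q : ℤ) ∣ P.a * P.b * P.c
  · apply Subtype.ext
    exact unipotent_of_inertia_of_mult hq hvq hσ P.freyCurve (frey_vint P A) (frey_v_c₄ P hq hvq hd)
      (frey_v_Δ_lt P hq hvq hd) (frey_Δ0 P) P.pp (by have := P.hp5; omega) hpv hP
  · have h1 : σ • x = x := by
      apply Subtype.ext
      exact map_eq_of_inertia_of_good hσ P.freyCurve (frey_vint P A) (frey_v_Δ_eq P hq hvq hd)
        hpv hP
    rw [h1, sub_self, smul_zero]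

lemma frey_inKer (P : FreyPackage) {A : ValuationSubring Kb} (hA : A.LiesOverPrime P.p) {σ : GQ}
    (hσ : σ ∈ A.inertiaSubgroupIn ℚ) (x : TorsP P.freyCurve P.p) :
    InKer A.valuation ((σ • x - x : TorsP P.freyCurve P.p) : (P.freyCurve⁄Kb).Point) := by
  have hvq : A.valuation (P.p : Kb) < 1 := hA
  have hP := torsion_smul x
  by_cases hd : (P.p : ℤ) ∣ P.a * P.b * P.c
  · exact sub_inKer_of_inertia_of_mult hσ P.freyCurve (frey_vint P A) (frey_v_c₄ P P.pp hvq hd)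
      (frey_v_Δ_lt P P.pp hvq hd) (frey_Δ0 P) P.pp (by have := P.hp5; omega) hvq hP
  · exact sub_inKer_of_inertia_of_good P.pp hvq hσ P.freyCurve (frey_vint P A)
      (frey_v_Δ_eq P P.pp hvq hd) _

/-- rational `2`-adic units are `1` mod `2`. -/
lemma rat_unit_two {A : ValuationSubring Kb} (hA : A.valuation ((2 : ℕ) : Kb) < 1) {c : ℚ}
    (hc : A.valuation (c : Kb) = 1) : A.valuation ((c : Kb) - 1) < 1 := by
  have hdvd : ∀ n : ℤ, 2 ∣ n → A.valuation (n : Kb) < 1 := by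
    rintro _ ⟨k, rfl⟩
    push_cast
    rw [mul_comm]
    exact v_lt_mul (v_int_le _) (by exact_mod_cast hA)
  have hone : ∀ n : ℤ, ¬ (2 : ℤ) ∣ n → A.valuation (n : Kb) = 1 := fun n hn =>
    v_int_eq_one Nat.prime_two hA (by simpa using hn)
  have hden0 : ((c.den : ℤ) : Kb) ≠ 0 := by exact_mod_cast c.den_nz
  have hcast : (c : Kb) = (c.num : Kb) / ((c.den : ℤ) : Kb) := by
    rw [Rat.cast_def]; simp
  have hred := c.reduced
  have hnum : ¬ (2 : ℤ) ∣ c.num := by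
    intro h
    have hden : ¬ (2 : ℤ) ∣ (c.den : ℤ) := by
      intro h'
      have h1 : 2 ∣ c.num.natAbs := Int.natCast_dvd.mp h
      have h2 : 2 ∣ c.den := by exact_mod_cast h'
      have := Nat.dvd_gcd h1 h2
      rw [Nat.Coprime] at hred
      rw [hred] at this
      omega
    rw [hcast, map_div₀, hone _ hden, div_one] at hc
    have := hdvd _ h
    rw [hc] at this
    exact lt_irrefl _ this
  have hden : ¬ (2 : ℤ) ∣ (c.den : ℤ) := by
    intro h
    rw [hcast, map_div₀, hone _ hnum] at hc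
    have h1 := hdvd _ h
    have h2 : A.valuation ((c.den : ℤ) : Kb) ≠ 0 := (Valuation.ne_zero_iff _).mpr hden0
    rw [div_eq_one_iff_eq h2] at hc
    rw [← hc] at h1
    exact lt_irrefl _ h1
  have hvden := hone _ hden
  have e : (c : Kb) - 1 = ((c.num - c.den : ℤ) : Kb) / ((c.den : ℤ) : Kb) := by
    rw [hcast]
    field_simp
    push_cast
    ring
  rw [e, map_div₀, hvden, div_one]
  apply hdvd
  omega

lemma no_fixed_torsion (P : FreyPackage) {x : TorsP P.freyCurve P.p} (hx : x ≠ 0)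
    (hfix : ∀ σ : GQ, σ • x = x) : False := by
  obtain ⟨A, hA⟩ := GaloisBasics.exists_liesOverPrime Nat.prime_two
  have hv2 : A.valuation ((2 : ℕ) : Kb) < 1 := hA
  have hv2' : A.valuation (2 : Kb) < 1 := by exact_mod_cast hv2
  have hd : ((2 : ℕ) : ℤ) ∣ P.a * P.b * P.c := P.two_dvd_abc
  have hW := frey_vint P A
  have hc₄ := frey_v_c₄ P Nat.prime_two hv2 hd
  have hΔ := frey_v_Δ_lt P Nat.prime_two hv2 hd
  have hΔ0 := frey_Δ0 P
  obtain ⟨hM, ha₆⟩ := hW.multForm hc₄ hΔ hΔ0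
  set C := nodeVC (P.freyCurve⁄Kb) with hC
  have hpv : A.valuation (P.p : Kb) = 1 := v_nat_eq_one Nat.prime_two hv2 (fun h => by
    have := (Nat.prime_dvd_prime_iff_eq Nat.prime_two P.pp).mp h
    have := P.hp5
    omega)
  obtain ⟨Q, hQ⟩ := (pointEquiv (P.freyCurve⁄Kb) C).surjective x.1
  have hQp : P.p • Q = 0 := by
    apply (pointEquiv (P.freyCurve⁄Kb) C).injective
    rw [map_nsmul, hQ, torsion_smul, _root_.map_zero]
  have hQ0 : Q ≠ 0 := by
    rintro rfl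
    rw [_root_.map_zero] at hQ
    exact hx (Subtype.ext hQ.symm)
  -- rationality of the coordinates
  have hX : nodeX (P.freyCurve⁄Kb) = algebraMap ℚ Kb (nodeX P.freyCurve) := nodeX_map _ _
  have hrat : ∀ m : ℕ, ∃ c : ℚ, xc (m • Q) = (c : Kb) := by
    intro m
    have hfixm : ∀ σ : GQ, Point.map (W' := P.freyCurve) σ.toAlgHom
        (pointEquiv (P.freyCurve⁄Kb) C (m • Q)) = pointEquiv (P.freyCurve⁄Kb) C (m • Q) := by
      intro σ
      rw [map_nsmul, hQ, _root_.map_nsmul]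
      have := congrArg Subtype.val (hfix σ)
      rw [coe_smul_torsion] at this
      rw [this]
    generalize m • Q = R at hfixm
    rcases R with _ | ⟨X, Y, h⟩
    · exact ⟨0, by simp [xc]⟩
    · rw [pointEquiv_apply, pointMap_some] at hfixm
      have h1 : ∀ σ : GQ, σ (vcX C X) = vcX C X := by
        intro σ
        have := hfixm σ
        change Point.some (σ (vcX C X)) (σ (vcY C X Y)) _ = _ at this
        rw [Point.some.injEq] at this
        exact this.1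
      obtain ⟨c, hc⟩ := rational_of_fixed h1
      refine ⟨c - nodeX P.freyCurve, ?_⟩
      rw [xc_some]
      have h2 : vcX C X = X + nodeX (P.freyCurve⁄Kb) := by
        simp [vcX, hC, nodeVC]
      rw [h2, hX] at hc
      push_cast
      rw [hc]
      simp
  have hval := qval_ratVal (v := A.valuation) (K := Kb) Nat.prime_two hv2
  have hn : qval Nat.prime_two hv2 (C • (P.freyCurve⁄Kb)).a₆ =
      ((padicValRat 2 P.freyCurve.Δ : ℤ) : ℚ) := by
    have e1 : qval Nat.prime_two hv2 (C • (P.freyCurve⁄Kb)).a₆ =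
        qval Nat.prime_two hv2 (P.freyCurve⁄Kb).Δ := by
      rw [← hval.eq_iff hM.a₆0 hΔ0]
      exact ha₆
    rw [e1, frey_ΔK, qval_rat Nat.prime_two hv2 (frey_Δ_ne_zero P)]
  have hdvd := hM.dvd_of_torsion hval hv2' P.pp P.hp5 hpv hQ0 hQp
    (by
      intro m h1
      obtain ⟨c, hc⟩ := hrat m
      rw [hc] at h1 ⊢
      exact rat_unit_two hv2 h1)
    (by
      intro h0
      obtain ⟨c, hc⟩ := hrat 1
      rw [one_smul] at hc
      rw [hc] at h0 ⊢
      have hc0 : c ≠ 0 := by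
        rintro rfl
        simp at h0
      exact ⟨padicValRat 2 c, qval_rat Nat.prime_two hv2 hc0⟩) hn
  have := Fact.mk Nat.prime_two
  rw [padic_frey_Δ] at hdvd
  have h8 : (P.p : ℤ) ∣ 8 := by
    have h1 : (P.p : ℤ) ∣ 2 * P.p * padicValInt 2 (P.a * P.b * P.c) :=
      Dvd.intro_left (2 : ℤ) rfl |>.mul_right _
    have h2 := dvd_sub h1 hdvd
    simpa using h2
  have h8' : P.p ∣ 2 ^ 3 := by
    have : P.p ∣ 8 := by exact_mod_cast h8
    simpa using this
  have h2 := (Nat.prime_dvd_prime_iff_eq P.pp Nat.prime_two).mp (P.pp.dvd_of_dvd_pow h8')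
  have := P.hp5
  omega

theorem result (P : FreyPackage) (hred : ¬ GaloisRepIsIrreducible (K := AlgebraicClosure ℚ) ℚ P.freyCurve P.p) : HasGaloisStableCofixedLine (K := AlgebraicClosure ℚ) ℚ P.freyCurve P.p := by
  have hpf := Fact.mk P.pp
  have hfin := finrank_torsion (E := P.freyCurve) (p := P.p)
  have hnt : Nontrivial (Submodule.torsionBy ℤ (P.freyCurve⁄Kb).Point P.p) := by
    have : Nontrivial (TorsP P.freyCurve P.p) := by
      by_contra hcon
      rw [not_nontrivial_iff_subsingleton] at hcon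
      have := Module.finrank_zero_of_subsingleton (R := ZMod P.p) (M := TorsP P.freyCurve P.p)
      omega
    exact this
  have hex : ∃ N : Submodule (ZMod P.p) (TorsP P.freyCurve P.p),
      IsGaloisStable ℚ N ∧ N ≠ ⊥ ∧ N ≠ ⊤ := by
    by_contra hcon
    apply hred
    refine ⟨hnt, fun N hN => ?_⟩
    by_contra h
    push Not at h
    exact hcon ⟨N, hN, h.1, h.2⟩
  obtain ⟨N, hN, hNb, hNt⟩ := hex
  refine ⟨N, hN, hNb, hNt, ?_⟩
  obtain ⟨A, hA⟩ := GaloisBasics.exists_liesOverPrime P.pp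
  rcases dichotomy (E := P.freyCurve) (p := P.p) (by have := P.hp5; omega)
    (fun q hq hqp => by
      obtain ⟨A', hA'⟩ := GaloisBasics.exists_liesOverPrime hq
      exact ⟨A', hA', fun σ hσ x => frey_unip P hq hqp hA' hσ x⟩) hA (frey_vint P A)
    (fun σ hσ x => frey_inKer P hA hσ x) hN hNb hNt with h | h
  · exact h
  · exfalso
    obtain ⟨x, hx, hx0⟩ := Submodule.exists_mem_ne_zero_of_ne_bot hNb
    exact no_fixed_torsion P hx0 (fun σ => h σ x hx)

end Fermat.Agent.S13
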