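-- Statement S09: the mod-p representation of the Frey curve is irreducible.
import Fermat.Statements.S09
import Fermat.Agent.S10
import Fermat.Agent.S11
import Fermat.Agent.S12
import Fermat.Agent.S13

set_option autoImplicit false
open WeierstrassCurve WeierstrassCurve.Affine WeierstrassCurve.Affine.Point
open CuspForm ModularFormClass UpperHalfPlane
open FreyPackage

namespace Fermat.Agent.S09

theorem result (P : FreyPackage) : GaloisRepIsIrreducible (K := AlgebraicClosure ℚ) ℚ P.freyCurve P.p := by
  by_contra hred
  have h := Fermat.Agent.S13.result P hred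
  by_cases h17 : 17 ≤ P.p
  · exact Fermat.Agent.S12.result P h17 h
  have h5 := P.hp5
  have hpp := P.pp
  have hlt : P.p < 17 := not_le.mp h17
  have hcases : P.p = 5 ∨ P.p = 7 ∨ P.p = 11 ∨ P.p = 13 := by
    have key : ∀ n : ℕ, n.Prime → 5 ≤ n → n < 17 → n = 5 ∨ n = 7 ∨ n = 11 ∨ n = 13 := by
      intro n hn h1 h2
      interval_cases n <;> first | omega | (exfalso; revert hn; decide)
    exact key P.p hpp h5 hlt
  rcases hcases with e | e | e | e
  · exact Fermat.Agent.S10.result P (Or.inl e) h
  · exact Fermat.Agent.S10.result P (Or.inr (Or.inl e)) h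
  · exact Fermat.Agent.S11.result P e h
  · exact Fermat.Agent.S10.result P (Or.inr (Or.inr e)) h

end Fermat.Agent.S09
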