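import Fermat.Statements.S15
import Fermat.Agent.Mzr.Glue
import Fermat.Agent.MX.B7

set_option autoImplicit false
open WeierstrassCurve WeierstrassCurve.Affine
open WeierstrassCurve

namespace Fermat.Agent.S15

theorem result
    {p : ℕ} (hp : p.Prime) (hp' : p ∉ ({2, 3, 5, 7, 13} : Finset ℕ))
    (W : WeierstrassCurve ℤ) (hΔ : W.Δ ≠ 0)
    (Q : ((W.map (Int.castRingHom ℚ))⁄(AlgebraicClosure ℚ)).Point)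
    (hQfix : ∀ σ : AlgebraicClosure ℚ ≃ₐ[ℚ] AlgebraicClosure ℚ, σ • Q = Q)
    (hQord : addOrderOf Q = p)
    (h2Δ : (2 : ℤ) ∣ W.Δ) (h2c₄ : ¬ (2 : ℤ) ∣ W.c₄)
    (h2 : ∀ A : ValuationSubring (AlgebraicClosure ℚ), A.LiesOverPrime 2 → ¬ W.InZeroComponentAt A Q)
    (h3Δ : (3 : ℤ) ∣ W.Δ) (h3c₄ : ¬ (3 : ℤ) ∣ W.c₄)
    (h3 : ∀ A : ValuationSubring (AlgebraicClosure ℚ), A.LiesOverPrime 3 → ¬ W.InZeroComponentAt A Q)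
    {ℓ : ℕ} (hℓ : ℓ.Prime) (hℓp : ℓ ≠ p) (hℓΔ : (ℓ : ℤ) ∣ W.Δ) (hℓc₄ : ¬ (ℓ : ℤ) ∣ W.c₄)
    (A : ValuationSubring (AlgebraicClosure ℚ)) (hA : A.LiesOverPrime ℓ) :
    ¬ W.InZeroComponentAt A Q := by
  intro hz
  haveI : Fact p.Prime := ⟨hp⟩
  haveI : NeZero p := ⟨hp.ne_zero⟩
  have hℓ2 : ℓ ≠ 2 := by rintro rfl; exact h2 A hA hz
  have hℓ3 : ℓ ≠ 3 := by rintro rfl; exact h3 A hA hz
  have hℓ4 : ℓ ≠ 4 := by rintro rfl; exact absurd hℓ (by decide)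
  have hℓ5 : 5 ≤ ℓ := by
    have := hℓ.two_le
    omega
  have hp2 : p ≠ 2 := by rintro rfl; exact hp' (by decide)
  have hp3' : p ≠ 3 := by rintro rfl; exact hp' (by decide)
  have hp3 : 3 < p := by
    have := hp.two_le
    omega
  obtain ⟨x, hx2, hx3, hxl⟩ := Fermat.Agent.MX.exists_x hp3 hΔ hQfix hQord h2Δ h2c₄ h2 h3Δ h3c₄ h3
  obtain ⟨hdvd, hvx, -, hnear⟩ := hxl ℓ hℓ hℓ5 hℓp hℓΔ hℓc₄ A hA hz
  exact Fermat.Agent.Mzr.mazur_final hp' x Fermat.Agent.Mzr.cO Fermat.Agent.Mzr.cI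
    (Or.inl ⟨rfl, rfl⟩) ⟨hx2, hx3⟩ hℓ hℓ5 hℓp hdvd hA hvx hnear

end Fermat.Agent.S15
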