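import Fermat.Statements.S16
import Fermat.Agent.Eis16.Lower
import Fermat.Agent.Eis16.Upper5

set_option autoImplicit false
open ModularCurve CuspForm
open ModularCurve

namespace Fermat.Agent.S16

theorem result
    (p : ℕ) [Fact p.Prime] :
    Nat.card (↥(heckeLatticeAlgebra p ∅) ⧸
        Ideal.map ((latticeRestrictHom p ∅).toRingHom.comp (heckeEvalForms p 2))
          (eisensteinIdeal p)) =
      eisensteinNumerator p := by
  have hp : p.Prime := Fact.out
  by_cases hp5 : 5 ≤ p
  · have hn : 0 < eisensteinNumerator p :=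
      Nat.pos_of_dvd_of_pos (eisensteinNumerator_dvd p) (by omega)
    exact Eis16.card_quotient_eq (eisensteinNumerator p) hn (Eis16.lower_bound hp5)
      (fun m hm => by
        obtain ⟨f, _, hf⟩ := hm
        exact Eis16.upper_bound hp5 hf)
  · have hp3 : p ≤ 3 := by
      have h4 : p ≠ 4 := by
        rintro rfl
        norm_num at hp
      omega
    have hn : eisensteinNumerator p = 1 := by
      have h2 := hp.two_le
      have h23 : p = 2 ∨ p = 3 := by omega
      rcases h23 with h | h
      · rw [h]; rfl
      · rw [h]; rfl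
    rw [hn]
    have key : ∀ f : CuspForm (CongruenceSubgroup.Gamma0 p) 2, (f : UpperHalfPlane → ℂ) = 0 :=
      fun f => Eis16.cusp_eq_zero_of_le hp3 f
    have hq : ∀ (f : CuspForm (CongruenceSubgroup.Gamma0 p) 2) (k : ℕ),
        ModularFormClass.qCoeff f k = 0 := by
      intro f k
      unfold ModularFormClass.qCoeff
      rw [key f, UpperHalfPlane.qExpansion_zero, map_zero]
    refine Eis16.card_quotient_eq 1 one_pos ?_ ?_
    · refine ⟨0, zero_mem _, fun k => ⟨-Eis16.sig p k, ?_⟩⟩
      rw [hq]
      simp
    · rintro m ⟨f, _, hf⟩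
      obtain ⟨k, hk⟩ := hf 1
      rw [hq, Eis16.sig_one hp] at hk
      have h1 : (0 : ℤ) = 1 * 1 + m * k := by exact_mod_cast hk
      exact ⟨-k, by push_cast; linear_combination -h1⟩

end Fermat.Agent.S16
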