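-- Statement S17: Mordell-Weil for J_0(N).
import Fermat.Statements.S17
import Fermat.Agent.MW.Final
import Fermat.Agent.BC.Main

set_option autoImplicit false
open ModularCurve AlgebraicCurve
open ModularCurve ModularCurve.JZero

namespace Fermat.Agent.S17

theorem result (N : ℕ) [NeZero N] (hN : N.Prime) (hN5 : 5 ≤ N) :
    AddGroup.FG ↥(FixedPoints.addSubgroup ((AlgebraicClosure ℚ) ≃ₐ[ℚ] (AlgebraicClosure ℚ)) (JZero N)) :=
  Fermat.Agent.MW.mordell_weil N fun x => Fermat.Agent.BC.div_pic0 N (by norm_num) x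

end Fermat.Agent.S17
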