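import Fermat.Statements.S18
import Fermat.Agent.RJ.Main
import Fermat.Agent.S24

set_option autoImplicit false
open ModularCurve

namespace Fermat.Agent.S18

set_option synthInstance.maxHeartbeats 400000 in
set_option maxHeartbeats 1600000 in
open AlgebraicCurve Fermat.Agent.RJ Fermat.Agent.Flat in
theorem result (N : ℕ) [NeZero N] {ℓ : ℕ}
    [Fact ℓ.Prime] (hℓN : ¬ ℓ ∣ N) (A : ValuationSubring (AlgebraicClosure ℚ)) (hA : A.LiesOverPrime ℓ)
    (h : ModularCurve.ReductionInputsModL A N) (m : ℕ) (hm : ¬ ℓ ∣ m) (z : ModularCurve.JZero N)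
    (hmz : m • z = 0) (hz : ModularCurve.reductionModL A N z = 0) :
    z = 0 := by
  have hq : ℓ.Prime := Fact.out
  have hm0 : m ≠ 0 := by
    rintro rfl
    exact hm (dvd_zero ℓ)
  obtain ⟨p, hp, hpq, hp23⟩ : ∃ p : ℕ, p.Prime ∧ p ≠ ℓ ∧ (p = 2 ∨ p = 3) := by
    by_cases h : ℓ = 2
    · exact ⟨3, by norm_num, by omega, Or.inr rfl⟩
    · exact ⟨2, by norm_num, fun h' => h h'.symm, Or.inl rfl⟩
  have : NeZero p := ⟨hp.ne_zero⟩
  have hqpN : ¬ ℓ ∣ p * N := by
    intro h
    rcases hq.dvd_mul.mp h with h | h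
    · exact hpq ((Nat.prime_dvd_prime_iff_eq hq hp).mp h).symm
    · exact hℓN h
  have h23 : 2 ∣ p * N ∨ 3 ∣ p * N := by
    rcases hp23 with rfl | rfl
    · exact Or.inl (dvd_mul_right _ _)
    · exact Or.inr (dvd_mul_right _ _)
  have hac : IsAlgClosed (IsLocalRing.ResidueField A) := isAlgClosed_residueA hq hA
  have hR := redPow hq hA hqpN h23 hm
  obtain ⟨D, rfl⟩ := Pic0.mk_surjective z
  rw [reductionModL_mk h D] at hz
  have hr := isPlaceReductionModL_placeReductionModL h
  have hgen : PrincipalGeneratedByIntegral A (IsLocalRing.residue A) N := h.choose_spec.2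
  have hmD : Divisor.IsPrincipal (m • (D : Divisor (AlgebraicClosure ℚ)
      (modularFunctionFieldBar N))) := by
    have h1 : m • Pic0.mk D = Pic0.mk (m • D) := rfl
    rw [h1, Pic0.mk, QuotientAddGroup.eq_zero_iff, AddSubgroup.mem_addSubgroupOf] at hmz
    exact hmz
  have hrD : Divisor.IsPrincipal (Finsupp.mapDomain (placeReductionModL h)
      (D : Divisor (AlgebraicClosure ℚ) (modularFunctionFieldBar N))) := by
    rw [Pic0.mk, QuotientAddGroup.eq_zero_iff, AddSubgroup.mem_addSubgroupOf] at hz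
    exact hz
  have hfin := isPrincipal_of_red hR hp hm0 (Fermat.Agent.S24.modularFunctionFieldBar_eq N)
    (placeReductionModL h) hr.2 hgen hmD hrD
  rw [Pic0.mk, QuotientAddGroup.eq_zero_iff, AddSubgroup.mem_addSubgroupOf]
  exact hfin

end Fermat.Agent.S18
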