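import Fermat.Statements.S22
import Fermat.Agent.ES.HeckeFinite

set_option autoImplicit false
open CuspForm

namespace Fermat.Agent.S22

theorem result (N : ℕ) [NeZero N] (k : ℤ) (S : Set ℕ) :
    Module.Finite ℤ (CuspForm.heckeAlgebra N k S) :=
  Fermat.Agent.ES.moduleFinite_heckeAlgebra k S

end Fermat.Agent.S22
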