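import Fermat.Statements.S32
import Fermat.Agent.Flat.FlatRep

set_option autoImplicit false
variable {p : ℕ} {N : ℕ} [NeZero N] {S : Finset ℕ}
  {𝒪 : Type} [CommRing 𝒪] [IsDomain 𝒪] [IsDiscreteValuationRing 𝒪]
  [IsAdicComplete (IsLocalRing.maximalIdeal 𝒪) 𝒪]
  {θ : CuspForm.heckeAlgebra N 2 (↑S : Set ℕ) →+* IsLocalRing.ResidueField 𝒪}
  {T : Type} [CommRing T] [IsLocalRing T] [IsNoetherianRing T]
  [IsAdicComplete (IsLocalRing.maximalIdeal T) T] [Algebra 𝒪 T] [IsLocalHom (algebraMap 𝒪 T)]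
  [Module.Finite 𝒪 T] [Module.Free 𝒪 T]
open CuspForm CuspForm.HeckeGaloisRepDatum

namespace Fermat.Agent.S32

theorem result
    [Finite (IsLocalRing.ResidueField 𝒪)] [CharZero 𝒪]
    (hp : p.Prime) (hp2 : p ≠ 2) (hp𝒪 : (p : 𝒪) ∈ IsLocalRing.maximalIdeal 𝒪) (hpN : ¬ p ∣ N)
    (hpS : p ∈ S) (hNS : ∀ q : ℕ, q.Prime → q ∣ N → q ∈ S)
    (H : CuspForm.HeckeGaloisRepDatum N (↑S : Set ℕ) 𝒪 θ T) :
    H.ρ.IsFlatAt p := by
  have hpT : (p : T) ∈ IsLocalRing.maximalIdeal T := by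
    rw [← map_natCast (algebraMap 𝒪 T)]
    exact map_nonunit (algebraMap 𝒪 T) _ hp𝒪
  have hfin : Finite (IsLocalRing.ResidueField T) := by
    have h1 : Module.Finite (IsLocalRing.ResidueField 𝒪) (IsLocalRing.ResidueField T) :=
      inferInstance
    exact Module.finite_of_finite (IsLocalRing.ResidueField 𝒪)
  exact Fermat.Agent.Flat.isFlatAt_of_hecke hp hp2 hpN hpS hNS hfin hpT
    (fun x hx => Fermat.Agent.ESCore.eq_zero_of_natCast_mul (𝒪 := 𝒪) hp.ne_zero hx) H.π H.ρ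
    H.charpoly_frob H.residual_absIrr

end Fermat.Agent.S32
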