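import Fermat.Statements.S34
import Fermat.Agent.ESCore.S34Final
import Fermat.Agent.KL.Final

set_option autoImplicit false
set_option autoImplicit false
open IsLocalRing
open CuspForm CuspForm.HeckeGaloisRepDatum

namespace Fermat.Agent.S34

theorem result
    {𝒪 : Type} [CommRing 𝒪] [IsDomain 𝒪] [IsDiscreteValuationRing 𝒪]
    [IsAdicComplete (maximalIdeal 𝒪) 𝒪] [Finite (ResidueField 𝒪)] [CharZero 𝒪]
    {p : ℕ} (hp : p.Prime) (hp𝒪 : (p : 𝒪) ∈ maximalIdeal 𝒪)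
    {N : ℕ} [NeZero N] {S : Finset ℕ} (hpS : p ∈ S) (hNS : ∀ q : ℕ, q.Prime → q ∣ N → q ∈ S)
    {θ : CuspForm.heckeAlgebra N 2 (↑S : Set ℕ) →+* ResidueField 𝒪}
    {T : Type} [CommRing T] [IsLocalRing T] [IsNoetherianRing T]
    [IsAdicComplete (maximalIdeal T) T] [Algebra 𝒪 T] [IsLocalHom (algebraMap 𝒪 T)]
    [Module.Finite 𝒪 T] [Module.Free 𝒪 T]
    (H : CuspForm.HeckeGaloisRepDatum N (↑S : Set ℕ) 𝒪 θ T)
    (q : ℕ) (hq : q.Prime) (hqp : q ≠ p) (hqN : q ∣ N) (hq2 : ¬ q ^ 2 ∣ N) :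
    H.ρ.IsUnipotentOnInertiaAt q := by
  obtain ⟨K, hK⟩ := hqN
  have hK0 : K ≠ 0 := by
    rintro rfl
    exact NeZero.ne N (by rw [hK, mul_zero])
  have hqK : ¬ q ∣ K := by
    rintro ⟨K', rfl⟩
    exact hq2 ⟨K', by rw [hK]; ring⟩
  have hM : NeZero (Fermat.Agent.ESCore.auxLev q * K) :=
    ⟨mul_ne_zero (Fermat.Agent.ESCore.auxLev_pos q).ne' hK0⟩
  have hN' : NeZero (q * (Fermat.Agent.ESCore.auxLev q * K)) := ⟨mul_ne_zero hq.ne_zero hM.out⟩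
  have hqM : ¬ q ∣ Fermat.Agent.ESCore.auxLev q * K := by
    intro h
    rcases hq.dvd_mul.mp h with h | h
    · exact Fermat.Agent.ESCore.not_dvd_auxLev hq h
    · exact hqK h
  refine Fermat.Agent.ESCore.isUnipotent_of_LG1 hp hp𝒪 hpS hNS
    (fun l hl hlN hlp B hB n => Fermat.Agent.KL.klProp (pow_pos hp.pos n) hl hlN
      (fun h => hlp ((Nat.prime_dvd_prime_iff_eq hl hp).mp (hl.dvd_of_dvd_pow h))) hB)
    (N' := q * (Fermat.Agent.ESCore.auxLev q * K)) ?_ hq hqp (fun A hA n => ?_) H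
  · exact ⟨Fermat.Agent.ESCore.auxLev q, by rw [hK]; ring⟩
  · exact Fermat.Agent.ESCore.LG1Prop_of hq hA rfl hqM (Fermat.Agent.ESCore.goodLev_aux q K) _
      (fun h => hqp ((Nat.prime_dvd_prime_iff_eq hq hp).mp (hq.dvd_of_dvd_pow h)))

end Fermat.Agent.S34
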