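import Fermat.Statements.S42
import Fermat.Agent.KL.Final
import Fermat.Agent.ESCore.GalGamma0
import Fermat.Agent.ESCore.Assembly

set_option autoImplicit false
open FreyPackage

namespace Fermat.Agent.S42

theorem result (P : FreyPackage) :
    ∀ M : ℕ, 0 < M → P.EigenformResidualAttachmentAt M := by
  intro M hM
  haveI : NeZero M := ⟨hM.ne'⟩
  exact Fermat.Agent.ESCore.ModP.exists_attachment P hM
    ⟨_, Fermat.Agent.ESCore.galData_galX P.pp.pos
      fun _ hl hlN hlm _ hB => Fermat.Agent.KL.klProp P.pp.pos hl hlN hlm hB⟩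

end Fermat.Agent.S42
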