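import Fermat.Statements.S49
import Fermat.Agent.Hecke.Eigenform
import Fermat.Agent.Hecke.Integral

set_option autoImplicit false
open FLT FLT.AbstractIntegralStructure
open CuspForm EisensteinWeightOne CongruenceSubgroup ModularFormClass

namespace Fermat.Agent.S49

open Fermat.Agent.Hecke

lemma three_dvd_bridgeProduct_sub (a : ℕ → ℤ) (n : ℕ) :
    (3 : ℤ) ∣ (bridgeProduct a).coeff n - a n := by
  have h1 : (e1Chi3In ℤ) = 1 + (PowerSeries.C (3 : ℤ)) *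
      PowerSeries.mk (fun n => if n = 0 then 0 else 2 * sigmaChi n) := by
    ext m
    rw [e1Chi3In, e1Chi3, PowerSeries.coeff_map, PowerSeries.coeff_mk, map_add,
      PowerSeries.coeff_C_mul, PowerSeries.coeff_mk, PowerSeries.coeff_one]
    split_ifs with h
    · simp
    · simp only [eq_intCast, Int.cast_id]
      ring
  have h2 : (bridgeProduct a).coeff n - a n = 3 * (PowerSeries.mk a *
      PowerSeries.mk (fun n => if n = 0 then 0 else 2 * sigmaChi n)).coeff n := by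
    rw [bridgeProduct, h1, mul_add, mul_one, map_add, PowerSeries.coeff_mk, add_sub_cancel_left,
      ← mul_assoc, mul_comm (PowerSeries.mk a) (PowerSeries.C 3), mul_assoc,
      PowerSeries.coeff_C_mul]
  rw [h2]
  exact dvd_mul_right _ _

lemma three_dvd_chiNegThree_sub (ℓ : ℕ) : (3 : ℤ) ∣ (ℓ : ℤ) - chiNegThree ℓ := by
  unfold chiNegThree
  split_ifs <;> omega

variable {N : ℕ} [NeZero N]

omit [NeZero N] in
lemma exists_three_smul (f : CuspForm (Gamma0 N) 2) (h : ∀ n, ∃ m : ℤ, qCoeff f n = 3 * (m : ℂ)) :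
    ∃ g ∈ CuspForm.intLattice N 2, f = (3 : ℂ) • g := by
  refine ⟨(3 : ℂ)⁻¹ • f, ?_, ?_⟩
  · rw [mem_intLattice_iff]
    intro n
    obtain ⟨m, hm⟩ := h n
    refine ⟨m, ?_⟩
    rw [Hecke.qCoeff_smul, hm]
    field_simp
  · rw [smul_smul, mul_inv_cancel₀ (by norm_num), one_smul]

/-- The relation `t f₀ ≡ c f₀ mod 3`. -/
def Rel (f₀ : CuspForm (Gamma0 N) 2) (t : Module.End ℂ (CuspForm (Gamma0 N) 2)) (c : ℤ) : Prop :=
  ∃ g ∈ CuspForm.intLattice N 2, t f₀ = (c : ℂ) • f₀ + (3 : ℂ) • g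

omit [NeZero N] in
lemma Rel.add {f₀ : CuspForm (Gamma0 N) 2} {s t : Module.End ℂ (CuspForm (Gamma0 N) 2)} {c d : ℤ}
    (hs : Rel f₀ s c) (ht : Rel f₀ t d) : Rel f₀ (s + t) (c + d) := by
  obtain ⟨g, hg, h1⟩ := hs
  obtain ⟨g', hg', h2⟩ := ht
  refine ⟨g + g', add_mem hg hg', ?_⟩
  rw [LinearMap.add_apply, h1, h2]
  push_cast
  module

lemma Rel.mul {f₀ : CuspForm (Gamma0 N) 2} {s t : Module.End ℂ (CuspForm (Gamma0 N) 2)} {c d : ℤ}
    (hsmem : s ∈ CuspForm.heckeAlgebra N 2 ∅) (hs : Rel f₀ s c) (ht : Rel f₀ t d) :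
    Rel f₀ (s * t) (c * d) := by
  obtain ⟨g, hg, h1⟩ := hs
  obtain ⟨g', hg', h2⟩ := ht
  refine ⟨(d : ℤ) • g + s g', add_mem ((CuspForm.intLattice N 2).smul_mem d hg)
    (CuspForm.mem_intLattice_of_mem_heckeAlgebra one_le_two hsmem hg'), ?_⟩
  rw [Module.End.mul_apply, h2, map_add, map_smul, map_smul, h1]
  rw [← Int.cast_smul_eq_zsmul ℂ d g]
  push_cast
  module

omit [NeZero N] in
lemma rel_algebraMap (f₀ : CuspForm (Gamma0 N) 2) (c : ℤ) :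
    Rel f₀ (algebraMap ℤ (Module.End ℂ (CuspForm (Gamma0 N) 2)) c) c := by
  refine ⟨0, zero_mem _, ?_⟩
  rw [smul_zero, add_zero, Module.algebraMap_end_apply, ← Int.cast_smul_eq_zsmul ℂ c f₀]

theorem exists_rel {a : ℕ → ℤ}
    (heig : FormalHecke.IsEigensystem
      (fun ℓ => if ℓ ∣ N then 0 else ((chiNegThree ℓ : ℤ) : ℤ)) a)
    {f₀ : CuspForm (Gamma0 N) 2} {af : ℕ → ℤ} (haf : ∀ n, (af n : ℂ) = qCoeff f₀ n)
    (hcong : ∀ n, (3 : ℤ) ∣ af n - a n) :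
    (∀ (ℓ : ℕ) (hℓ : ℓ.Prime) (hℓN : ¬ ℓ ∣ N), Rel f₀ (CuspForm.heckeTLin 2 hℓ hℓN) (a ℓ)) ∧
    (∀ (ℓ : ℕ) (_ : ℓ.Prime) (hℓN : ℓ ∣ N), Rel f₀ (CuspForm.heckeULin 2 hℓN) (a ℓ)) := by
  obtain ⟨ha1, hrel⟩ := heig
  constructor
  · intro ℓ hℓ hℓN
    obtain ⟨g, hg, h⟩ := exists_three_smul (CuspForm.heckeTLin 2 hℓ hℓN f₀ - ((a ℓ : ℤ) : ℂ) • f₀)
      (fun n => by
        rw [qCoeff_sub_smul, qCoeff_heckeTLin hℓ hℓN, ← haf, ← haf]
        have h1 := hrel ℓ hℓ n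
        simp only [if_neg hℓN] at h1
        obtain ⟨c1, hc1⟩ := hcong (n * ℓ)
        obtain ⟨c2, hc2⟩ := hcong (n / ℓ)
        obtain ⟨c3, hc3⟩ := hcong n
        obtain ⟨c4, hc4⟩ := three_dvd_chiNegThree_sub ℓ
        have h4 : (ℓ : ℂ) ^ ((2 : ℤ) - 1) = ((ℓ : ℤ) : ℂ) := by norm_num
        rw [h4, ← haf]
        rw [mul_comm ℓ n] at h1
        by_cases hd : ℓ ∣ n
        · rw [if_pos hd] at h1 ⊢
          refine ⟨c1 + c4 * af (n / ℓ) + chiNegThree ℓ * c2 - a ℓ * c3, ?_⟩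
          have h5 : af (n * ℓ) + ℓ * af (n / ℓ) - a ℓ * af n =
              3 * (c1 + c4 * af (n / ℓ) + chiNegThree ℓ * c2 - a ℓ * c3) := by
            linear_combination hc1 + af (n / ℓ) * hc4 + chiNegThree ℓ * hc2 - a ℓ * hc3 + h1
          exact_mod_cast h5
        · rw [if_neg hd] at h1 ⊢
          refine ⟨c1 - a ℓ * c3, ?_⟩
          have h5 : af (n * ℓ) + 0 - a ℓ * af n = 3 * (c1 - a ℓ * c3) := by
            linear_combination hc1 - a ℓ * hc3 + h1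
          exact_mod_cast h5)
    exact ⟨g, hg, by rw [← h]; abel⟩
  · intro ℓ hℓ hℓN
    obtain ⟨g, hg, h⟩ := exists_three_smul (CuspForm.heckeULin 2 hℓN f₀ - ((a ℓ : ℤ) : ℂ) • f₀)
      (fun n => by
        rw [qCoeff_sub_smul, qCoeff_heckeULin hℓ hℓN, ← haf, ← haf]
        have h1 := hrel ℓ hℓ n
        simp only [if_pos hℓN, zero_mul, add_zero] at h1
        obtain ⟨c1, hc1⟩ := hcong (n * ℓ)
        obtain ⟨c3, hc3⟩ := hcong n
        rw [mul_comm ℓ n] at h1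
        refine ⟨c1 - a ℓ * c3, ?_⟩
        have h5 : af (n * ℓ) - a ℓ * af n = 3 * (c1 - a ℓ * c3) := by
          linear_combination hc1 - a ℓ * hc3 + h1
        exact_mod_cast h5)
    exact ⟨g, hg, by rw [← h]; abel⟩

/-- The ideal of operators killing `f₀` modulo `3`. -/
def killIdeal (f₀ : CuspForm (Gamma0 N) 2) : Ideal (CuspForm.heckeAlgebra N 2 ∅) where
  carrier := {t | ∃ g ∈ CuspForm.intLattice N 2,
    (t : Module.End ℂ (CuspForm (Gamma0 N) 2)) f₀ = (3 : ℂ) • g}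
  add_mem' := by
    rintro s t ⟨g, hg, h1⟩ ⟨g', hg', h2⟩
    refine ⟨g + g', add_mem hg hg', ?_⟩
    rw [AddMemClass.coe_add, LinearMap.add_apply, h1, h2, smul_add]
  zero_mem' := ⟨0, zero_mem _, by rw [ZeroMemClass.coe_zero, LinearMap.zero_apply, smul_zero]⟩
  smul_mem' := by
    rintro s t ⟨g, hg, h1⟩
    refine ⟨(s : Module.End ℂ (CuspForm (Gamma0 N) 2)) g,
      CuspForm.mem_intLattice_of_mem_heckeAlgebra one_le_two s.2 hg, ?_⟩
    rw [smul_eq_mul, MulMemClass.coe_mul, Module.End.mul_apply, h1, map_smul]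

lemma mem_killIdeal (f₀ : CuspForm (Gamma0 N) 2) (t : CuspForm.heckeAlgebra N 2 ∅) :
    t ∈ killIdeal f₀ ↔ ∃ g ∈ CuspForm.intLattice N 2,
      (t : Module.End ℂ (CuspForm (Gamma0 N) 2)) f₀ = (3 : ℂ) • g := Iff.rfl

/-- Every element of the Hecke algebra acts by a scalar modulo `3`. -/
lemma exists_rel_of_mem {a : ℕ → ℤ}
    (heig : FormalHecke.IsEigensystem
      (fun ℓ => if ℓ ∣ N then 0 else ((chiNegThree ℓ : ℤ) : ℤ)) a)
    {f₀ : CuspForm (Gamma0 N) 2} {af : ℕ → ℤ} (haf : ∀ n, (af n : ℂ) = qCoeff f₀ n)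
    (hcong : ∀ n, (3 : ℤ) ∣ af n - a n) {t : Module.End ℂ (CuspForm (Gamma0 N) 2)}
    (ht : t ∈ CuspForm.heckeAlgebra N 2 ∅) : ∃ c : ℤ, Rel f₀ t c := by
  obtain ⟨hT, hU⟩ := exists_rel heig haf hcong
  have ht' : t ∈ Algebra.adjoin ℤ (CuspForm.heckeGenerators N 2 ∅) := ht
  induction ht' using Algebra.adjoin_induction with
  | mem x hx =>
    rcases hx with ⟨ℓ, hℓ, hℓN, -, rfl⟩ | ⟨ℓ, hℓN, hℓ, -, rfl⟩
    · exact ⟨_, hT ℓ hℓ hℓN⟩
    · exact ⟨_, hU ℓ hℓ hℓN⟩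
  | algebraMap r => exact ⟨r, rel_algebraMap f₀ r⟩
  | add x y hx hy h1 h2 =>
    obtain ⟨c, hc⟩ := h1 hx
    obtain ⟨d, hd⟩ := h2 hy
    exact ⟨_, hc.add hd⟩
  | mul x y hx hy h1 h2 =>
    obtain ⟨c, hc⟩ := h1 hx
    obtain ⟨d, hd⟩ := h2 hy
    exact ⟨_, hc.mul hx hd⟩

lemma rel_iff_sub_mem {f₀ : CuspForm (Gamma0 N) 2} (t : CuspForm.heckeAlgebra N 2 ∅) (c : ℤ) :
    Rel f₀ t c ↔ t - (c : CuspForm.heckeAlgebra N 2 ∅) ∈ killIdeal f₀ := by
  rw [mem_killIdeal]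
  refine exists_congr fun g => and_congr_right fun _ => ?_
  have h1 : ((t - (c : CuspForm.heckeAlgebra N 2 ∅) : CuspForm.heckeAlgebra N 2 ∅) :
      Module.End ℂ (CuspForm (Gamma0 N) 2)) f₀ =
      (t : Module.End ℂ (CuspForm (Gamma0 N) 2)) f₀ - (c : ℂ) • f₀ := by
    rw [AddSubgroupClass.coe_sub, LinearMap.sub_apply]
    congr 1
    have h2 : ((c : CuspForm.heckeAlgebra N 2 ∅) : Module.End ℂ (CuspForm (Gamma0 N) 2)) =
        (c : Module.End ℂ (CuspForm (Gamma0 N) 2)) := by push_cast; rfl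
    rw [h2, Module.End.intCast_apply, Int.cast_smul_eq_zsmul]
  rw [h1, sub_eq_iff_eq_add, add_comm]

lemma intCast_mem_killIdeal {f₀ : CuspForm (Gamma0 N) 2} {m : ℤ} (hm : qCoeff f₀ 1 = (m : ℂ))
    (hm3 : (3 : ℤ) ∣ m - 1) (c : ℤ) (hf₀ : f₀ ∈ CuspForm.intLattice N 2) :
    (c : CuspForm.heckeAlgebra N 2 ∅) ∈ killIdeal f₀ ↔ (3 : ℤ) ∣ c := by
  rw [mem_killIdeal]
  have h2 : ((c : CuspForm.heckeAlgebra N 2 ∅) : Module.End ℂ (CuspForm (Gamma0 N) 2)) =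
        (c : Module.End ℂ (CuspForm (Gamma0 N) 2)) := by push_cast; rfl
  rw [h2, Module.End.intCast_apply, ← Int.cast_smul_eq_zsmul ℂ]
  constructor
  · rintro ⟨g, hg, h⟩
    obtain ⟨r, hr⟩ := (mem_intLattice_iff g).mp hg 1
    have h3 := congrArg (fun F : CuspForm (Gamma0 N) 2 => qCoeff F 1) h
    simp only [Hecke.qCoeff_smul] at h3
    rw [hm, hr] at h3
    have h4 : c * m = 3 * r := by exact_mod_cast h3
    have h5 : (3 : ℤ) ∣ c * m := ⟨r, h4⟩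
    obtain ⟨q, hq⟩ := hm3
    have h6 : c = c * m - 3 * (q * c) := by linear_combination (-c) * hq
    rw [h6]
    exact dvd_sub h5 (dvd_mul_right _ _)
  · rintro ⟨d, rfl⟩
    refine ⟨((d : ℤ) : ℂ) • f₀, ?_, ?_⟩
    · rw [Int.cast_smul_eq_zsmul]
      exact (CuspForm.intLattice N 2).smul_mem d hf₀
    · rw [smul_smul]; push_cast; rfl

theorem killIdeal_isMaximal {a : ℕ → ℤ}
    (heig : FormalHecke.IsEigensystem
      (fun ℓ => if ℓ ∣ N then 0 else ((chiNegThree ℓ : ℤ) : ℤ)) a)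
    {f₀ : CuspForm (Gamma0 N) 2} {af : ℕ → ℤ} (haf : ∀ n, (af n : ℂ) = qCoeff f₀ n)
    (hcong : ∀ n, (3 : ℤ) ∣ af n - a n) (hf₀ : f₀ ∈ CuspForm.intLattice N 2) :
    (killIdeal f₀).IsMaximal := by
  have h1 : (3 : ℤ) ∣ af 1 - 1 := by
    have := hcong 1
    rwa [heig.1] at this
  have hint := fun c => intCast_mem_killIdeal (haf 1).symm h1 c hf₀
  rw [Ideal.isMaximal_iff]
  constructor
  · intro h
    have h2 := (hint 1).mp (by rw [Int.cast_one]; exact h)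
    omega
  · intro J x hJ hx hxJ
    obtain ⟨c, hc⟩ := exists_rel_of_mem heig haf hcong x.2
    rw [rel_iff_sub_mem] at hc
    have hc3 : ¬ (3 : ℤ) ∣ c := fun h3 => hx (by
      have := (killIdeal f₀).add_mem hc ((hint c).mpr h3)
      rwa [sub_add_cancel] at this)
    have hcJ : (c : CuspForm.heckeAlgebra N 2 ∅) ∈ J := by
      have := J.sub_mem hxJ (hJ hc)
      rwa [sub_sub_cancel] at this
    have h3 : (3 : ℤ) ∣ c * c - 1 := by
      have h4 : c % 3 = 1 ∨ c % 3 = 2 := by omega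
      rcases h4 with h4 | h4
      · obtain ⟨q, hq⟩ : ∃ q, c = 3 * q + 1 := ⟨c / 3, by omega⟩
        exact ⟨3 * q * q + 2 * q, by rw [hq]; ring⟩
      · obtain ⟨q, hq⟩ : ∃ q, c = 3 * q + 2 := ⟨c / 3, by omega⟩
        exact ⟨3 * q * q + 4 * q + 1, by rw [hq]; ring⟩
    have h5 : ((c * c - 1 : ℤ) : CuspForm.heckeAlgebra N 2 ∅) ∈ J := hJ ((hint _).mpr h3)
    have h6 : (c : CuspForm.heckeAlgebra N 2 ∅) * (c : CuspForm.heckeAlgebra N 2 ∅) ∈ J :=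
      J.mul_mem_left _ hcJ
    have h7 := J.sub_mem h6 h5
    have h8 : (c : CuspForm.heckeAlgebra N 2 ∅) * (c : CuspForm.heckeAlgebra N 2 ∅) -
        ((c * c - 1 : ℤ) : CuspForm.heckeAlgebra N 2 ∅) = 1 := by
      push_cast; ring
    rwa [h8] at h7

theorem result
    {N : ℕ} [NeZero N] (h : CuspForm.HasIntegralBasis N) {a : ℕ → ℤ}
    (heig : FormalHecke.IsEigensystem
      (fun ℓ => if ℓ ∣ N then 0 else ((chiNegThree ℓ : ℤ) : ℤ)) a)
    (hreal : CuspForm.IsLatticeRealized N a) :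
    ∃ (f : CuspForm (Gamma0 N) 2) (_ : f.IsNormalizedEigenform)
      (𝔪' : Ideal (integralClosure ℤ ℂ)), 𝔪'.IsMaximal ∧
      ((3 : ℕ) : integralClosure ℤ ℂ) ∈ 𝔪' ∧
      ∀ (ℓ : ℕ) (_ : ℓ.Prime) (_ : ¬ ℓ ∣ N),
        ∃ c : integralClosure ℤ ℂ, (c : ℂ) = ModularFormClass.qCoeff f ℓ ∧
          c - (a ℓ : integralClosure ℤ ℂ) ∈ 𝔪' := by
  obtain ⟨f₀, hf₀, af, haf, hcong0⟩ := hreal
  have hcong : ∀ n, (3 : ℤ) ∣ af n - a n := fun n => by
    have := dvd_add (hcong0 n) (three_dvd_bridgeProduct_sub a n)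
    rwa [sub_add_sub_cancel] at this
  have hf₀' : f₀ ∈ CuspForm.intLattice N 2 := by
    have := qIntegralSet_eq N ▸ hf₀
    exact this
  have hmax := killIdeal_isMaximal heig haf hcong hf₀'
  obtain ⟨f, χ, 𝔪', hf, hmax', hcomap, -, hT, -⟩ := exists_eigenform_of_isMaximal
    (isIntegral_of_hasIntegralStructure (hasIntegralStructure_of_hasIntegralBasis h) ∅)
    (killIdeal f₀)
  have h3 : (3 : ℤ) ∣ af 1 - 1 := by
    have := hcong 1
    rwa [heig.1] at this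
  refine ⟨f, hf, 𝔪', hmax', ?_, ?_⟩
  · have h4 : ((3 : ℤ) : CuspForm.heckeAlgebra N 2 ∅) ∈ killIdeal f₀ :=
      (intCast_mem_killIdeal (haf 1).symm h3 3 hf₀').mpr (dvd_refl _)
    rw [← hcomap, Ideal.mem_comap, map_intCast] at h4
    exact_mod_cast h4
  · intro ℓ hℓ hℓN
    refine ⟨χ (CuspForm.heckeAlgebra.T hℓ hℓN (Set.notMem_empty _)), hT ℓ hℓ hℓN, ?_⟩
    have h4 := (exists_rel heig haf hcong).1 ℓ hℓ hℓN
    have h5 := (rel_iff_sub_mem (CuspForm.heckeAlgebra.T hℓ hℓN (Set.notMem_empty _)) (a ℓ)).mp h4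
    rw [← hcomap, Ideal.mem_comap, map_sub, map_intCast] at h5
    exact h5

end Fermat.Agent.S49
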