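import Fermat.Statements.S51
import Fermat.Agent.X015.Algebra
import Fermat.Agent.X015.Galois

set_option autoImplicit false
open WeierstrassCurve WeierstrassCurve.Affine WeierstrassCurve.Affine.Point
open CuspForm ModularFormClass UpperHalfPlane
open WeierstrassCurve

namespace Fermat.Agent.S51

theorem result (W : WeierstrassCurve ℤ) (hΔ : W.Δ ≠ 0) (hW : W.IsSemistableModel) : W.ModRepIsIrreducible 3 ∨ W.ModRepIsIrreducible 5 := by
  rw [or_iff_not_imp_left]
  intro h3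
  by_contra h5
  have hΔ' : (W.map (Int.castRingHom ℚ)).Δ ≠ 0 := by
    rw [WeierstrassCurve.map_Δ]
    simpa using hΔ
  have e4 : (W.map (Int.castRingHom ℚ)).c₄ = (W.c₄ : ℚ) := by
    rw [WeierstrassCurve.map_c₄]; rfl
  have e6 : (W.map (Int.castRingHom ℚ)).c₆ = (W.c₆ : ℚ) := by
    rw [WeierstrassCurve.map_c₆]; rfl
  obtain ⟨ξ, hξ⟩ := Fermat.Agent.X015.three_reducible _ hΔ' h3
  obtain ⟨s, q, ⟨hB, hA⟩, hd⟩ := Fermat.Agent.X015.five_reducible _ hΔ' h5
  rw [Fermat.Agent.X015.q3, e4, e6] at hξ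
  rw [e4, e6] at hB
  rw [e4] at hA
  exact Fermat.Agent.X015.algebra_main W.c_relation hΔ
    (hW 5 (by norm_num)) hξ hB hA hd

end Fermat.Agent.S51
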