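-- Statement S52: the 3-5 switch.
import Fermat.Statements.S52
import Fermat.Agent.SW.Hilb
import Fermat.Agent.SW.Root
import Fermat.Agent.TF.Ap

set_option autoImplicit false
open WeierstrassCurve WeierstrassCurve.Affine WeierstrassCurve.Affine.Point
open CuspForm ModularFormClass UpperHalfPlane
open WeierstrassCurve

namespace Fermat.Agent.S52

theorem result (W : WeierstrassCurve ℤ) (hΔ : W.Δ ≠ 0) (hW : W.IsSemistableModel) (h5 : W.ModRepIsIrreducible 5) : ∃ W' : WeierstrassCurve ℤ, W'.Δ ≠ 0 ∧ W'.IsSemistableModel ∧ W'.ModRepIsIrreducible 3 ∧ ∀ ℓ : ℕ, ℓ.Prime → W.IsGoodPrimeFor ℓ → W'.IsGoodPrimeFor ℓ → ℓ ≠ 5 → (5 : ℤ) ∣ (W'.apOfModel ℓ - W.apOfModel ℓ) := by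
  have hne : W.c₄ ^ 3 ≠ W.c₆ ^ 2 := by
    intro h
    have h1 := W.c_relation
    rw [h, sub_self] at h1
    rcases mul_eq_zero.1 h1 with h2 | h2
    · norm_num at h2
    · exact hΔ h2
  obtain ⟨M, hM, hmod⟩ := SW.exists_model W hΔ hW
  obtain ⟨t, ht⟩ := SW.exists_no_root W.c₄ W.c₆ hne hM
  obtain ⟨W', h4, h6, hΔ', hss, -⟩ := hmod (t : ℤ)
  refine ⟨W', hΔ', hss, ?_, TF.ap_congr W W' hΔ hΔ' ((M : ℤ) * t) h4 h6⟩
  by_contra hirr
  obtain ⟨z, hz⟩ := SW.exists_root_of_reducible W' hΔ' hirr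
  rw [h4, h6] at hz
  exact ht z hz

end Fermat.Agent.S52
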