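import Fermat.Statements.S53
import Fermat.Agent.UnivDef.Final
-- import your own Fermat.Agent.* helpers here

set_option autoImplicit false
set_option autoImplicit false
open GaloisRep

namespace Fermat.Agent.S53

open Fermat.Agent.UnivDef IsLocalRing in
theorem result
    (𝒪 : Type) [CommRing 𝒪] [IsDomain 𝒪] [IsDiscreteValuationRing 𝒪]
    [IsAdicComplete (IsLocalRing.maximalIdeal 𝒪) 𝒪] [Finite (IsLocalRing.ResidueField 𝒪)]
    (ρbar : ResidualGaloisRep (IsLocalRing.ResidueField 𝒪))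
    (𝒟 : ∀ ⦃A : Type⦄ [CommRing A] [IsLocalRing A] [Algebra 𝒪 A], GaloisRepAdic A → Prop)
    (habs : ρbar.IsAbsolutelyIrreducible)
    (h𝒟 : GaloisRep.IsDeformationCondition 𝒪 𝒟)
    (hbar : 𝒟 (GaloisRepAdic.ofResidualGaloisRep ρbar))
    (hfin : GaloisRep.TangentFinite 𝒪 ρbar 𝒟) :
    Nonempty (GaloisRep.DeformationRingData 𝒪 ρbar 𝒟) := by
  obtain ⟨F⟩ := nonempty_frameData ρbar habs
  obtain ⟨σ, instσ, x, hx, hgen⟩ := exists_gens (F := F) h𝒟 hbar hfin
  choose J hJ hJpow hJmin using exists_min hx hgen h𝒟 hbar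
  let T : Tower F 𝒟 := ⟨J, hJ, hJpow, hJmin⟩
  obtain ⟨D⟩ := nonempty_limitData hx hgen T h𝒟
  have hn := D.isNorm_rR
  refine ⟨{ R := D.R
            residue_surjective := D.residue_surjective
            absIrr := habs
            ρ := ofMat D.rR hn.cont
            isOfType := D.isOfType h𝒟
            residual_isEquiv := residual_isEquiv_of_isLiftMat F hn.cont hn.res
            universal := ?_ }⟩
  intro A _ _ _ _ _ _ hsurj ρA hDA hres
  obtain ⟨r, hr, ⟨e⟩⟩ := exists_isNorm F ρA hres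
  obtain ⟨φ, hφ⟩ := D.exists_classifying (A := A) (r := r) fun n u hu =>
    LimitData.ev_mem_pow h𝒟 hsurj ρA hDA hr ⟨e⟩ T n hu
  have hφloc : IsLocalHom (φ : D.R →+* A) := isLocalHom_of_algHom φ inferInstance hsurj
  have key : ∀ (ψ : D.R →ₐ[𝒪] A) (hψ : IsLocalHom (ψ : D.R →+* A)),
      ((ofMat D.rR hn.cont).baseChangeAlong (ψ : D.R →+* A) hψ).IsEquiv ρA ↔
        mapMat (ψ : D.R →+* A) D.rR = r := by
    intro ψ hψ
    have hnψ := hn.map F ψ hψ
    obtain ⟨e₁⟩ := ofMat_baseChangeAlong _ hψ hn.cont hnψ.cont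
    constructor
    · rintro ⟨e₂⟩
      exact hnψ.eq_of_isEquiv F hr ⟨(e₁.symm.trans e₂).trans e⟩
    · intro h
      subst h
      exact ⟨e₁.trans e.symm⟩
  have hcomp : ∀ (ψ : D.R →ₐ[𝒪] A), mapMat (ψ : D.R →+* A) D.rR = r →
      ψ.comp D.Φ = ev r := by
    intro ψ h
    refine algHom_ext_X fun g i j => ?_
    rw [ev_X, ← h]
    rfl
  have hmat : mapMat (φ : D.R →+* A) D.rR = r := by
    refine MonoidHom.ext fun g => ?_
    ext i j
    rw [mapMat_apply, D.rR_apply]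
    have := DFunLike.congr_fun hφ (MvPolynomial.X (g, i, j))
    rw [ev_X] at this
    exact this
  refine ⟨φ, ⟨hφloc, (key φ hφloc).mpr hmat⟩, ?_⟩
  rintro ψ ⟨hψ, hψe⟩
  exact D.algHom_eq_of_comp_Φ_eq hψ hφloc ((hcomp ψ ((key ψ hψ).mp hψe)).trans hφ.symm)

end Fermat.Agent.S53
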