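import Fermat.Statements.S54
import Fermat.Agent.GaloisBasics.FrobeniusExists
-- import your own Fermat.Agent.* helpers here

set_option autoImplicit false
open GaloisRep GaloisRep.DeformationRingData

namespace Fermat.Agent.S54

open Polynomial in
theorem charpoly_of_isEquiv {A B : Type} [CommRing A] [IsLocalRing A] [CommRing B] [IsLocalRing B]
    (φ : A →+* B) (hφ : IsLocalHom φ) (ρ : GaloisRepAdic A) (ρ' : GaloisRepAdic B)
    (h : (ρ.baseChangeAlong φ hφ).IsEquiv ρ')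
    (σ : AlgebraicClosure ℚ ≃ₐ[ℚ] AlgebraicClosure ℚ) :
    LinearMap.charpoly (ρ'.ρ σ) = (LinearMap.charpoly (ρ.ρ σ)).map φ := by
  obtain ⟨e⟩ := h
  letI : Algebra A B := φ.toAlgebra
  have h1 : ρ'.ρ σ = e.toLinearEquiv.conj ((ρ.baseChangeAlong φ hφ).ρ σ) := by
    refine LinearMap.ext fun y => ?_
    rw [LinearEquiv.conj_apply_apply, e.map_apply, LinearEquiv.apply_symm_apply]
  rw [h1, LinearEquiv.charpoly_conj]
  exact LinearMap.charpoly_baseChange (ρ.ρ σ) B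

theorem result {𝒪 : Type} [CommRing 𝒪] [IsDomain 𝒪] [IsDiscreteValuationRing 𝒪] [IsAdicComplete (IsLocalRing.maximalIdeal 𝒪) 𝒪] {ρbar : ResidualGaloisRep (IsLocalRing.ResidueField 𝒪)} {𝒟 : ∀ ⦃A : Type⦄ [CommRing A] [IsLocalRing A] [Algebra 𝒪 A], GaloisRepAdic A → Prop} (D : GaloisRep.DeformationRingData 𝒪 ρbar 𝒟) {N : ℕ} [NeZero N] {S : Set ℕ} {θ : CuspForm.heckeAlgebra N 2 S →+* IsLocalRing.ResidueField 𝒪} {T : Type} [CommRing T] [IsLocalRing T] [IsNoetherianRing T] [IsAdicComplete (IsLocalRing.maximalIdeal T) T] [Algebra 𝒪 T] [IsLocalHom (algebraMap 𝒪 T)] [Module.Finite 𝒪 T] [Module.Free 𝒪 T] (H : CuspForm.HeckeGaloisRepDatum N S 𝒪 θ T) (hS : ∀ q : ℕ, q.Prime → q ∣ N → q ∈ S) (h𝒟 : 𝒟 H.ρ) (hres : H.ρ.residual.IsEquiv (ρbar.baseChangeAlong (IsLocalRing.ResidueField.map (algebraMap 𝒪 T)))) : ∃ φ : D.R →ₐ[𝒪] T, Function.Surjective φ ∧ ∃ hφ : IsLocalHom (φ : D.R →+* T), (D.ρ.baseChangeAlong (φ : D.R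 →+* T) hφ).IsEquiv H.ρ := by
  obtain ⟨φ, ⟨hφ, heq⟩, -⟩ := D.universal T H.residue_surjective H.ρ h𝒟 hres
  refine ⟨φ, ?_, hφ, heq⟩
  have hgen : ∀ (x : Module.End ℂ (CuspForm (CongruenceSubgroup.Gamma0 N) 2))
      (hx : x ∈ CuspForm.heckeAlgebra N 2 S), H.π ⟨x, hx⟩ ∈ φ.range := by
    intro x hx
    refine Algebra.adjoin_induction (p := fun x hx => H.π ⟨x, hx⟩ ∈ φ.range) ?_ ?_ ?_ ?_ hx
    · rintro y (⟨ℓ, hℓ, hℓN, hℓS, rfl⟩ | ⟨q, hqN, hq, hqS, rfl⟩)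
      · obtain ⟨A, hA⟩ := Fermat.Agent.GaloisBasics.exists_liesOverPrime hℓ
        obtain ⟨σ, hσ⟩ := Fermat.Agent.GaloisBasics.exists_isFrobeniusAt hℓ A hA
        have h1 := H.charpoly_frob ℓ hℓ hℓN hℓS A hA σ hσ
        rw [charpoly_of_isEquiv _ hφ _ _ heq σ] at h1
        have h2 := congrArg (fun p => Polynomial.coeff p 1) h1
        simp only [Polynomial.coeff_map, Polynomial.coeff_add, Polynomial.coeff_sub,
          Polynomial.coeff_X_pow, Polynomial.coeff_C_mul, Polynomial.coeff_X_one,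
          Polynomial.coeff_C] at h2
        refine ⟨-(LinearMap.charpoly (D.ρ.ρ σ)).coeff 1, ?_⟩
        have h3 : φ ((LinearMap.charpoly (D.ρ.ρ σ)).coeff 1) =
          -H.π (CuspForm.heckeAlgebra.T hℓ hℓN hℓS) := by simpa using h2
        show φ (-(LinearMap.charpoly (D.ρ.ρ σ)).coeff 1) = _
        rw [map_neg, h3, neg_neg]
        rfl
      · exact absurd (hS q hq hqN) hqS
    · intro r
      have : (⟨algebraMap ℤ _ r, Subalgebra.algebraMap_mem _ r⟩ : CuspForm.heckeAlgebra N 2 S) =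
          ((r : ℤ) : CuspForm.heckeAlgebra N 2 S) := by
        exact Subtype.ext (by simp)
      rw [this, map_intCast]
      exact intCast_mem _ r
    · intro a b ha hb iha ihb
      have : (⟨a + b, add_mem ha hb⟩ : CuspForm.heckeAlgebra N 2 S) = ⟨a, ha⟩ + ⟨b, hb⟩ := rfl
      rw [this, map_add]
      exact add_mem iha ihb
    · intro a b ha hb iha ihb
      have : (⟨a * b, mul_mem ha hb⟩ : CuspForm.heckeAlgebra N 2 S) = ⟨a, ha⟩ * ⟨b, hb⟩ := rfl
      rw [this, map_mul]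
      exact mul_mem iha ihb
  have hrange : φ.range = ⊤ := by
    rw [eq_top_iff, ← H.adjoin_range_π]
    refine Algebra.adjoin_le ?_
    rintro _ ⟨t, rfl⟩
    exact hgen t.1 t.2
  exact (AlgHom.range_eq_top φ).mp hrange

end Fermat.Agent.S54
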