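import Fermat.Statements.S57
import Fermat.Agent.Patching.MaximalCM
import Fermat.Agent.Patching.PowerSeriesRegular

set_option autoImplicit false
open Algebra Algebra.PatchingLevel

namespace Fermat.Agent.S57

open IsLocalRing RingTheory.Sequence Fermat.Agent.Patching

lemma mem_ideal_smul_top_iff {A N ι : Type*} [CommRing A] [AddCommGroup N] [Module A N]
    (b : Module.Basis ι A N) (I : Ideal A) (x : N) :
    x ∈ I • (⊤ : Submodule A N) ↔ ∀ i, b.repr x i ∈ I := by
  classical
  constructor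
  · intro hx i
    induction hx using Submodule.smul_induction_on' with
    | smul a ha n _ =>
      rw [map_smul, Finsupp.smul_apply, smul_eq_mul]
      exact Ideal.mul_mem_right _ _ ha
    | add x _ y _ hx hy =>
      rw [map_add, Finsupp.add_apply]
      exact Ideal.add_mem _ hx hy
  · intro h
    rw [← b.linearCombination_repr x, Finsupp.linearCombination_apply, Finsupp.sum]
    exact Submodule.sum_mem _ fun i _ => Submodule.smul_mem_smul (h i) trivial

/-- Abstract conclusion: `N` free over `A`, `ψ : A → R` surjective, `π : N → M` semilinear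
surjective with kernel `I N`. -/
lemma conclusion {A R M N : Type*} [CommRing A] [CommRing R] [AddCommGroup M] [Module R M]
    [AddCommGroup N] [Module A N] [Module.Free A N] [Nontrivial N] (ψ : A →+* R)
    (hψ : Function.Surjective ψ) (π : N →+ M)
    (hπ_smul : ∀ (f : A) (x : N), π (f • x) = ψ f • π x) (hπ : Function.Surjective π)
    (I : Ideal A) (hI : I ≤ RingHom.ker ψ)
    (hker : ∀ x : N, π x = 0 ↔ x ∈ I • (⊤ : Submodule A N)) :
    Module.Free R M ∧ Module.annihilator R M = ⊥ ∧ RingHom.ker ψ = I := by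
  classical
  let b := Module.Free.chooseBasis A N
  have hmem : ∀ x : N, x ∈ I • (⊤ : Submodule A N) ↔ ∀ i, b.repr x i ∈ I :=
    mem_ideal_smul_top_iff b I
  have hne : Nonempty (Module.Free.ChooseBasisIndex A N) := b.index_nonempty
  have hker' : ∀ a : A, (∀ x : N, π (a • x) = 0) → a ∈ I := by
    intro a ha
    obtain ⟨i⟩ := hne
    have h1 := (hmem _).mp ((hker _).mp (ha (b i))) i
    simpa using h1
  have hkerI : RingHom.ker ψ = I := by
    refine le_antisymm (fun a ha => hker' a fun x => ?_) hI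
    rw [RingHom.mem_ker] at ha
    rw [hπ_smul, ha, zero_smul]
  refine ⟨?_, ?_, hkerI⟩
  · -- the images of `b` form a basis
    have hli : LinearIndependent R (fun i => π (b i)) := by
      rw [linearIndependent_iff']
      intro s g hg i hi
      choose a ha using fun i => hψ (g i)
      have h1 : π (∑ j ∈ s, a j • b j) = 0 := by
        rw [map_sum, ← hg]
        refine Finset.sum_congr rfl fun j _ => ?_
        rw [hπ_smul, ha]
      have h2 := (hmem _).mp ((hker _).mp h1) i
      have h3 : b.repr (∑ j ∈ s, a j • b j) i = a i := by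
        rw [map_sum, Finsupp.finsetSum_apply]
        rw [Finset.sum_eq_single i]
        · simp
        · intro j _ hji
          simp [Finsupp.single_eq_of_ne hji.symm]
        · intro h; exact absurd hi h
      rw [h3, ← hkerI, RingHom.mem_ker, ha] at h2
      exact h2
    have hsp : ⊤ ≤ Submodule.span R (Set.range fun i => π (b i)) := by
      rintro x -
      obtain ⟨y, rfl⟩ := hπ x
      rw [← b.linearCombination_repr y, Finsupp.linearCombination_apply, Finsupp.sum, map_sum]
      refine Submodule.sum_mem _ fun i _ => ?_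
      rw [hπ_smul]
      exact Submodule.smul_mem _ _ (Submodule.subset_span ⟨i, rfl⟩)
    exact Module.Free.of_basis (Module.Basis.mk hli hsp)
  · rw [eq_bot_iff]
    intro x hx
    obtain ⟨a, rfl⟩ := hψ x
    rw [Module.mem_annihilator] at hx
    have h1 : a ∈ I := hker' a fun y => by rw [hπ_smul, hx]
    rw [← hkerI, RingHom.mem_ker] at h1
    rw [Ideal.mem_bot, h1]

theorem result
    {𝒪 : Type} [CommRing 𝒪] [IsDomain 𝒪] [IsDiscreteValuationRing 𝒪]
    {r : ℕ} {R : Type} [CommRing R] [Algebra 𝒪 R]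
    {M : Type} [AddCommGroup M] [Module R M] [Nontrivial M]
    (L : Algebra.PatchingLevel 𝒪 r R M ⊥) :
    Module.Free R M ∧ Module.annihilator R M = ⊥ ∧
      RingHom.ker L.ψ = Ideal.span (Set.range fun i : Fin r => L.φ (MvPowerSeries.X i)) := by
  classical
  obtain ⟨ϖ, hϖ⟩ := IsDiscreteValuationRing.exists_irreducible 𝒪
  have hmaxO : maximalIdeal 𝒪 = Ideal.span {ϖ} := hϖ.maximalIdeal_eq
  have hϖ0 : ϖ ≠ 0 := hϖ.ne_zero
  set I : Ideal (MvPowerSeries (Fin r) 𝒪) :=
    Ideal.span (Set.range fun i : Fin r => L.φ (MvPowerSeries.X i)) with hIdef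
  have hntN : Nontrivial L.N := L.π_surjective.nontrivial
  have hspan : ∀ x : L.N, ∃ c : Fin L.d → MvPowerSeries (Fin r) 𝒪,
      x = ∑ i, (L.φ : MvPowerSeries (Fin r) 𝒪 →+* MvPowerSeries (Fin r) 𝒪) (c i) • L.b i :=
    L.b_span
  have hrel : ∀ c : Fin L.d → MvPowerSeries (Fin r) 𝒪,
      ∑ i, (L.φ : MvPowerSeries (Fin r) 𝒪 →+* MvPowerSeries (Fin r) 𝒪) (c i) • L.b i = 0 →
        ∀ i, c i = 0 := fun c hc i => by
    simpa using (L.b_rel c).mp hc i
  have hfin : Module.Finite (MvPowerSeries (Fin r) 𝒪) L.N := by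
    refine ⟨⟨Finset.univ.image L.b, ?_⟩⟩
    rw [_root_.eq_top_iff]
    rintro x -
    obtain ⟨c, rfl⟩ := L.b_span x
    exact Submodule.sum_mem _ fun i _ => Submodule.smul_mem _ _
      (Submodule.subset_span (by simp))
  have hIψ : I ≤ RingHom.ker L.ψ := by
    rw [hIdef, Ideal.span_le]
    rintro _ ⟨i, rfl⟩
    exact L.ψ_φ_X i
  have hX : ∀ i : Fin r, L.φ (MvPowerSeries.X i) ∈ maximalIdeal (MvPowerSeries (Fin r) 𝒪) := by
    intro i
    by_contra hcon
    rw [mem_maximalIdeal, mem_nonunits_iff, not_not] at hcon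
    have h1 : I = ⊤ := Ideal.eq_top_of_isUnit_mem I (Ideal.subset_span ⟨i, rfl⟩) hcon
    obtain ⟨m, hm⟩ := exists_ne (0 : M)
    obtain ⟨x, rfl⟩ := L.π_surjective m
    apply hm
    rw [L.ker_π x]
    change x ∈ I • (⊤ : Submodule (MvPowerSeries (Fin r) 𝒪) L.N)
    rw [h1, Submodule.top_smul]
    trivial
  have hreg0 := isWeaklyRegular_map_of_basis
    (L.φ : MvPowerSeries (Fin r) 𝒪 →+* MvPowerSeries (Fin r) 𝒪) L.b hspan hrel _
    (isWeaklyRegular_X_append (r := r) ϖ (fun x hx => by
      rcases mul_eq_zero.mp hx with h | h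
      · exact absurd h hϖ0
      · exact h))
  have hmem : ∀ s ∈ (List.ofFn (MvPowerSeries.X : Fin r → MvPowerSeries (Fin r) 𝒪) ++
      [MvPowerSeries.C ϖ]).map
        (L.φ : MvPowerSeries (Fin r) 𝒪 →+* MvPowerSeries (Fin r) 𝒪),
      s ∈ maximalIdeal (MvPowerSeries (Fin r) 𝒪) := by
    intro s hs
    rw [List.mem_map] at hs
    obtain ⟨t, ht, rfl⟩ := hs
    rw [List.mem_append, List.mem_ofFn, List.mem_singleton] at ht
    rcases ht with ⟨i, rfl⟩ | rfl
    · exact hX i
    · have h1 : (L.φ : MvPowerSeries (Fin r) 𝒪 →+* MvPowerSeries (Fin r) 𝒪)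
          (MvPowerSeries.C ϖ) = MvPowerSeries.C ϖ := L.φ.commutes ϖ
      rw [h1, maximalIdeal_eq_span r ϖ hmaxO]
      exact Ideal.subset_span ⟨0, by simp⟩
  have hfree : Module.Free (MvPowerSeries (Fin r) 𝒪) L.N :=
    free_of_isRegular_of_span_eq (r + 1) (MvPowerSeries (Fin r) 𝒪) L.N
      (Fin.cons (MvPowerSeries.C ϖ) MvPowerSeries.X) (maximalIdeal_eq_span r ϖ hmaxO) _
      (by simp) hmem (IsRegular.of_isWeaklyRegular_of_mem_maximalIdeal L.N hmem hreg0)
  exact conclusion (L.ψ : MvPowerSeries (Fin r) 𝒪 →+* R) L.ψ_surjective L.π L.π_smul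
    L.π_surjective I hIψ L.ker_π

end Fermat.Agent.S57
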